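import Mathlib
import Fermat.Agent.LT.Descent.Hyp.Local

/-!
# Cosets against translations

Local heights along the orbit of the translations, the partition weight at a place, and the finite
slabs of cosets with bounded heights of the two coordinate lines.
-/

set_option autoImplicit false

noncomputable section

open Matrix IsDedekindDomain NumberField Filter
open scoped MatrixGroups

namespace FermatAgent.LT.Uni

open Whit Hyp

variable {F : Type*} [Field F] [NumberField F] {U : Level F} {v : HeightOneSpectrum (𝓞 F)}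

/-- Absolute values compare as valuations. -/
lemma absV_le_absV_iff (x : F) {y : F} (hy : y ≠ 0) :
    absV v x ≤ absV v y ↔ v.valuation F x ≤ v.valuation F y := by
  rw [← div_le_one (AbsoluteValue.pos _ hy), ← map_div₀, absV_le_one_iff, map_div₀,
    div_le_one₀ (zero_lt_iff.mpr (by simpa using hy))]

variable (v) in
/-- A bounded set of absolute values is a bounded set of valuations. -/
lemma exists_valuation_bound (R : ℝ) :
    ∃ r : WithZero (Multiplicative ℤ), ∀ x : F, absV v x ≤ R → v.valuation F x ≤ r := by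
  obtain ⟨π, hπ⟩ := v.valuation_exists_uniformizer F
  have hπ0 : π ≠ 0 := fun h => WithZero.exp_ne_zero (by rw [← hπ, h, map_zero])
  have hq : (1 : ℝ) < v.asIdeal.absNorm := by exact_mod_cast HeightOneSpectrum.one_lt_absNorm v
  obtain ⟨n, hn⟩ := pow_unbounded_of_one_lt R hq
  refine ⟨v.valuation F (π⁻¹ ^ n), fun x hx => ?_⟩
  rw [← absV_le_absV_iff x (pow_ne_zero n (inv_ne_zero hπ0))]
  refine hx.trans (hn.le.trans (le_of_eq ?_))
  rw [map_pow, map_inv₀, absV_of_valuation hπ, _root_.zpow_neg, zpow_one, inv_inv]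

/-- The height only depends on the coset of the maximal compact group. -/
lemma locM_congr {c d : G2 F ⧸ U.loc v}
    (h : Subgroup.quotientMapOfLE (U.le v) c = Subgroup.quotientMapOfLE (U.le v) d)
    (ξ : Fin 2 → F) : locM v ξ c = locM v ξ d := by
  induction c using QuotientGroup.induction_on with | H a =>
  induction d using QuotientGroup.induction_on with | H b =>
  obtain ⟨k, hk, e⟩ := QuotientGroup.eq.mp h
  obtain ⟨A, rfl⟩ := ProjGenLinGroup.mk_surjective a
  obtain ⟨B, rfl⟩ := ProjGenLinGroup.mk_surjective b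
  simp only [id_eq, ← map_inv, ← map_mul, Matrix.ProjGenLinGroup.mk_eq_mk_iff] at e
  obtain ⟨u, hu⟩ := e
  change k * GeneralLinearGroup.scalar (Fin 2) u = A⁻¹ * B at hu
  rw [locM_mk, locM_mk, show B = A * k * GeneralLinearGroup.scalar (Fin 2) u by
    rw [mul_assoc, hu, mul_inv_cancel_left], locMGL_scalar, locMGL_mul_locGL v ξ A hk]

/-- Sizes at points of the maximal compact group. -/
lemma locM_proj {κ : G2 F} (hκ : κ ∈ locK v) (ξ : Fin 2 → F) :
    locM v ξ (QuotientGroup.mk κ : G2 F ⧸ U.loc v) = vecAbs v ξ ^ 2 := by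
  have h : (QuotientGroup.mk κ : G2 F ⧸ locK v) = QuotientGroup.mk 1 :=
    QuotientGroup.eq.mpr (by simpa using inv_mem hκ)
  rw [locM_congr (c := (QuotientGroup.mk κ : G2 F ⧸ U.loc v)) (d := QuotientGroup.mk 1) h ξ,
    ← map_one ProjGenLinGroup.mk, locM_mk]
  simp [locMGL]

/-- The ultrametric inequality for sizes. -/
lemma locM_add_le (ξ η : Fin 2 → F) (c : G2 F ⧸ U.loc v) :
    locM v (ξ + η) c ≤ max (locM v ξ c) (locM v η c) := by
  induction c using QuotientGroup.induction_on with | H h =>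
  induction h using Matrix.ProjGenLinGroup.induction_on with | mk h =>
  simp only [locM_mk, locMGL]
  rw [max_div_div_right (AbsoluteValue.nonneg _ _), Matrix.add_vecMul]
  refine div_le_div_of_nonneg_right ?_ (AbsoluteValue.nonneg _ _)
  have h0 : ∀ η : Fin 2 → F, 0 ≤ vecAbs v η := fun η =>
    le_max_of_le_left (AbsoluteValue.nonneg _ _)
  have hv : vecAbs v (ξ ᵥ* h.val + η ᵥ* h.val) ≤
      max (vecAbs v (ξ ᵥ* h.val)) (vecAbs v (η ᵥ* h.val)) :=
    max_le ((absV_add_le v _ _).trans (max_le_max (le_max_left _ _) (le_max_left _ _)))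
      ((absV_add_le v _ _).trans (max_le_max (le_max_right _ _) (le_max_right _ _)))
  rcases le_max_iff.mp hv with hh | hh
  exacts [le_max_of_le_left (pow_le_pow_left₀ (h0 _) hh 2),
    le_max_of_le_right (pow_le_pow_left₀ (h0 _) hh 2)]

/-- The first size is positive. -/
lemma locM_pos_e1 (c : G2 F ⧸ U.loc v) : 0 < locM v e1 c := locM_pos v e1_ne_zero c

/-- Sizes are even. -/
lemma locM_neg (ξ : Fin 2 → F) (c : G2 F ⧸ U.loc v) : locM v (-ξ) c = locM v ξ c := by
  rw [show -ξ = (-1 : F) • ξ by simp, locM_smul_vec]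
  simp

/-- The line `(1, s)`. -/
def line (s : F) : Fin 2 → F := ![1, s]

omit [NumberField F] in
/-- The line through zero. -/
lemma line_zero : line (0 : F) = e0 := rfl

lemma line_vecMul_uB (s x : F) : line s ᵥ* (uB x).val = line (s + x) := by
  funext i
  fin_cases i <;> simp [line, Matrix.vecMul, dotProduct, Fin.sum_univ_two, add_comm]

lemma locM_line_nB (s x : F) (c : G2 F ⧸ U.loc v) :
    locM v (line s) ((nB x : G2 F) • c) = locM v (line (s + x)) c := by
  rw [locM_smul, line_vecMul_uB]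
  simp [Matrix.det_fin_two]

lemma locM_e0_nB (x : F) (c : G2 F ⧸ U.loc v) :
    locM v e0 ((nB x : G2 F) • c) = locM v (line x) c := by
  rw [← line_zero, locM_line_nB, zero_add]

/-- Iwasawa coordinates. -/
lemma exists_normal (c : G2 F ⧸ U.loc v) :
    ∃ (β : F) (α : Fˣ), ∃ κ ∈ locK v, c = (nB β : G2 F) • (dG α : G2 F) • QuotientGroup.mk κ := by
  induction c using QuotientGroup.induction_on with | H g₀ =>
  obtain ⟨g, rfl⟩ := ProjGenLinGroup.mk_surjective g₀
  obtain ⟨b, hb, k, hk, rfl⟩ := exists_iwasawa v g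
  obtain ⟨α, β, hαβ⟩ := exists_upper_form hb
  refine ⟨β, α, _, ⟨k, hk, rfl⟩, ?_⟩
  rw [map_mul, hαβ, map_mul, MulAction.Quotient.smul_mk, MulAction.Quotient.smul_mk, smul_eq_mul,
    smul_eq_mul, mul_assoc]

lemma locM_e1_normal (β : F) (α : Fˣ) {κ : G2 F} (hκ : κ ∈ locK v) :
    locM v e1 ((nB β : G2 F) • (dG α : G2 F) • (QuotientGroup.mk κ : G2 F ⧸ U.loc v)) =
      (absV v (α : F))⁻¹ := by
  rw [locM_nB, locM_e1_dG, locM_proj hκ]
  simp [vecAbs, e1]

/-- Sizes of lines at normal form points. -/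
lemma locM_line_normal (s β : F) (α : Fˣ) {κ : G2 F} (hκ : κ ∈ locK v) :
    locM v (line s) ((nB β : G2 F) • (dG α : G2 F) • (QuotientGroup.mk κ : G2 F ⧸ U.loc v)) =
      max (absV v (α : F)) (absV v (s + β)) ^ 2 / absV v (α : F) := by
  rw [locM_line_nB, locM_smul, locM_proj hκ]
  simp [line, vecAbs, Matrix.vecMul, dotProduct, Fin.sum_univ_two, Matrix.det_fin_two]

/-- A line of height inverse to the bottom one. -/
lemma exists_dual (c : G2 F ⧸ U.loc v) : ∃ s : F, locM v (line s) c * locM v e1 c = 1 := by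
  obtain ⟨β, α, κ, hκ, rfl⟩ := exists_normal c
  refine ⟨-β, ?_⟩
  have h := AbsoluteValue.pos (absV v) α.ne_zero
  rw [locM_line_normal _ _ _ hκ, locM_e1_normal _ _ hκ, neg_add_cancel, map_zero,
    max_eq_left h.le]
  field_simp

/-- A translation moving boundedly bounds the bottom height. -/
theorem locM_e1_le_of_ratio {c : G2 F ⧸ U.loc v} {C : ℝ} (hC : 1 ≤ C)
    (h : ∀ ξ : Fin 2 → F, locM v ξ ((nB 1 : G2 F) • c) ≤ C * locM v ξ c) :
    locM v e1 c ≤ C := by
  obtain ⟨s, hs⟩ := exists_dual c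
  have h1 := locM_pos_e1 c
  have h2 : locM v (line (s + 1)) c ≤ C * locM v (line s) c := by
    rw [← locM_line_nB]; exact h _
  have hp : 0 ≤ locM v (line s) c := (pos_of_mul_pos_left (hs ▸ one_pos) h1.le).le
  have h3 : locM v e1 c ≤ C * locM v (line s) c := by
    have e : (e1 : Fin 2 → F) = line (s + 1) + -line s := by
      funext i; fin_cases i <;> simp [e1, line]
    rw [e]
    refine (locM_add_le _ _ c).trans (max_le h2 ?_)
    rw [locM_neg]
    exact le_mul_of_one_le_left hp hC
  have h4 : locM v e1 c * locM v e1 c ≤ C * 1 := by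
    rw [← hs, ← mul_assoc]
    exact mul_le_mul_of_nonneg_right h3 h1.le
  nlinarith

/-- A translation fixing the coset of the maximal compact group bounds the bottom height by one. -/
theorem locM_e1_le_one {c : G2 F ⧸ U.loc v}
    (h : Subgroup.quotientMapOfLE (U.le v) ((nB 1 : G2 F) • c) =
      Subgroup.quotientMapOfLE (U.le v) c) :
    locM v e1 c ≤ 1 :=
  locM_e1_le_of_ratio le_rfl fun ξ => by rw [locM_congr h, one_mul]

/-- The partition weight at a place. -/
def pw (c : G2 F ⧸ U.loc v) : ℝ :=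
  if locM v e1 c * locM v e0 c ≤ max (locM v e1 c) 1 ^ 2 then min 1 (locM v e1 c) else 0

/-- The weight is nonnegative. -/
lemma pw_nonneg (c : G2 F ⧸ U.loc v) : 0 ≤ pw c := by
  unfold pw; split_ifs
  exacts [le_min zero_le_one (locM_pos_e1 c).le, le_rfl]

/-- The weight is at most the first size. -/
lemma pw_le (c : G2 F ⧸ U.loc v) : pw c ≤ locM v e1 c := by
  unfold pw; split_ifs
  exacts [min_le_right _ _, (locM_pos_e1 c).le]

/-- The weight at the base. -/
lemma pw_base : pw (QuotientGroup.mk 1 : G2 F ⧸ U.loc v) = 1 := by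
  simp [pw, locM_proj (one_mem _), vecAbs, e1, e0]

/-- The weight at translates of the base. -/
lemma pw_base_nB [DecidablePred fun b : F => v.valuation F b ≤ 1] (b : F) :
    pw ((nB b : G2 F) • (QuotientGroup.mk 1 : G2 F ⧸ U.loc v)) =
      if v.valuation F b ≤ 1 then 1 else 0 := by
  simp only [pw, locM_nB, locM_e0_nB, locM_proj (one_mem _)]
  have h1 : vecAbs v (e1 : Fin 2 → F) = 1 := by simp [vecAbs, e1]
  rw [h1]
  simp only [one_pow, max_self, min_self, one_mul, vecAbs, line, Matrix.cons_val_zero,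
    Matrix.cons_val_one, map_one]
  refine if_congr ?_ rfl rfl
  rw [pow_le_one_iff_of_nonneg (le_max_of_le_left zero_le_one) two_ne_zero, max_le_iff,
    absV_le_one_iff]
  simp

/-- Along translations the weight is constant on a ball and zero off it. -/
lemma exists_pw_nB (c : G2 F ⧸ U.loc v) :
    ∃ (β r : F), 1 ≤ absV v r ∧ ∀ b : F, pw ((nB b : G2 F) • c) =
      if absV v (b + β) ≤ absV v r then (absV v r)⁻¹ else 0 := by
  classical
  obtain ⟨β, α, κ, hκ, rfl⟩ := exists_normal c
  set a := absV v (α : F)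
  have ha : 0 < a := AbsoluteValue.pos _ α.ne_zero
  refine ⟨β, if absV v (α : F) ≤ 1 then 1 else α, ?_, fun b => ?_⟩
  · split_ifs with h
    · simp
    · exact (not_le.mp h).le
  have hR : absV v (if absV v (α : F) ≤ 1 then (1 : F) else α) = max a 1 := by
    split_ifs with h
    · rw [max_eq_right h, map_one]
    · rw [max_eq_left (not_le.mp h).le]
  rw [hR, pw, locM_nB, locM_e0_nB, locM_e1_normal _ _ hκ, locM_line_normal _ _ _ hκ]
  have hm : max a⁻¹ 1 = max a 1 / a := by
    rw [← max_div_div_right ha.le, div_self ha.ne', one_div, max_comm]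
  refine if_congr ?_ ?_ rfl
  · rw [hm, div_pow, inv_mul_eq_div, div_div, ← sq, div_le_div_iff_of_pos_right (by positivity),
      pow_le_pow_iff_left₀ (le_max_of_le_left ha.le) (le_max_of_le_left ha.le) two_ne_zero,
      max_le_iff]
    exact ⟨fun h => h.2, fun h => ⟨le_max_left _ _, h⟩⟩
  · rcases le_total a 1 with h | h
    · rw [max_eq_right h, inv_one, min_eq_left ((one_le_inv₀ ha).mpr h)]
    · rw [max_eq_left h, min_eq_right (inv_le_one_of_one_le₀ h)]

/-- Sizes on the support of the weight. -/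
lemma le_of_pw_ne_zero {c : G2 F ⧸ U.loc v} (h : pw c ≠ 0) :
    locM v e1 c * locM v e0 c ≤ max (locM v e1 c) 1 ^ 2 := by
  unfold pw at h
  split_ifs at h with h'
  exacts [h', absurd rfl h]

variable (U v) in
/-- The cosets of bottom height one and bounded top height. -/
def slab (R : ℝ) : Set (G2 F ⧸ U.loc v) := {c | locM v e1 c = 1 ∧ locM v e0 c ≤ R}

lemma exists_slab_rep {R : ℝ} {c : G2 F ⧸ U.loc v} (hc : c ∈ slab U v R) :
    ∃ β : F, max 1 (absV v β) ^ 2 ≤ R ∧ ∃ κ ∈ locK v, c = (nB β : G2 F) • QuotientGroup.mk κ := by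
  obtain ⟨β, κ, hκ, rfl⟩ := exists_slice_rep (show c ∈ slice U v from hc.1)
  refine ⟨β, ?_, κ, hκ, rfl⟩
  have h := hc.2
  rw [locM_e0_nB, locM_proj hκ] at h
  simpa [vecAbs, line] using h

/-- The cosets of bottom height one and bounded top height are finite in number. -/
theorem finite_slab (hU : U.IsCongr) (R : ℝ) : (slab U v R).Finite := by
  classical
  obtain ⟨r, hr⟩ := exists_valuation_bound v (max 1 R)
  have hfin := LocKer.finite_ball (U.le v) (hU.isFiniteIndex v)
    (QuotientGroup.mk 1 : G2 F ⧸ U.loc v)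
  refine (hfin.biUnion fun d _ => finite_ball_translates hU r d).subset fun c hc => ?_
  obtain ⟨β, hβ, κ, hκ, rfl⟩ := exists_slab_rep hc
  refine Set.mem_biUnion (x := QuotientGroup.mk κ) ?_ ⟨β, hr β ?_, rfl⟩
  · show LocKer.indF (locK v) _ _ ≠ 0
    rw [LocKer.indF_mk (U.le v), if_pos (by simpa using hκ)]
    exact one_ne_zero
  · nlinarith [le_max_right 1 (absV v β), le_max_left 1 (absV v β), le_max_right 1 R]

/-- The unit slab is the base. -/
lemma slab_one_eq (hU : U.loc v = locK v) {c : G2 F ⧸ U.loc v} (hc : c ∈ slab U v 1) :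
    c = QuotientGroup.mk 1 := by
  obtain ⟨β, hβ, κ, hκ, rfl⟩ := exists_slab_rep hc
  have h : absV v β ≤ 1 :=
    (le_max_right 1 _).trans
      ((pow_le_one_iff_of_nonneg (le_max_of_le_left zero_le_one) two_ne_zero).mp hβ)
  rw [MulAction.Quotient.smul_mk, smul_eq_mul, QuotientGroup.eq, mul_one, hU]
  exact inv_mem (mul_mem (nB_mem_locK ((absV_le_one_iff v β).mp h)) hκ)

/-- Scaling a weighted coset into a slab. -/
lemma scale_mem_slab {c : G2 F ⧸ U.loc v} (h : pw c ≠ 0) {d : Fˣ}
    (hd : absV v (d : F) = locM v e1 c) {C : ℝ} (hC : locM v e1 c ≤ C) :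
    (dG d : G2 F) • c ∈ slab U v (max C 1 ^ 2) := by
  refine ⟨?_, ?_⟩
  · rw [locM_e1_dG, hd, div_self (locM_pos_e1 c).ne']
  · rw [locM_e0_dG, hd, mul_comm]
    exact (le_of_pw_ne_zero h).trans (pow_le_pow_left₀ (le_max_of_le_right zero_le_one)
      (max_le_max hC le_rfl) 2)

variable [IsTotallyComplex F]

end FermatAgent.LT.Uni
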