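import Mathlib
import Fermat.Agent.LT.Descent.GlueingMatch
import Fermat.Agent.LT.Descent.Uni.Local

/-!
# Rows of local kernels, logarithmic heights, centralisers of translations

Tools for the heights on the glued supports of a translation.
-/

set_option autoImplicit false

noncomputable section

open Matrix IsDedekindDomain NumberField
open scoped MatrixGroups

namespace FermatAgent.LT

open Whit TwistCtx

namespace LocKer

variable {F : Type*} [Field F] [NumberField F] {U : Level F} {v : HeightOneSpectrum (𝓞 F)}

/-- The rows have boundedly many entries. -/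
lemma exists_card_row (k : LocKer U v) : ∃ N : ℕ, ∀ c, (k.row c).toFinset.card ≤ N := by
  classical
  refine ⟨(k.row (QuotientGroup.mk 1)).toFinset.card, fun c => ?_⟩
  induction c using QuotientGroup.induction_on with | H g =>
  refine Finset.card_le_card_of_injOn (fun d => g⁻¹ • d) (fun d hd => ?_)
    (MulAction.injective g⁻¹).injOn
  simp only [Finset.mem_coe, Set.Finite.mem_toFinset, Set.mem_ofPred_eq] at hd ⊢
  rwa [← k.inv g, smul_inv_smul, MulAction.Quotient.smul_mk, smul_eq_mul, mul_one]

end LocKer

/-- The sum of the logarithmic bottom heights over the places above. -/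
def TwistCtx.famLog {K L : Type*} [Field K] [NumberField K] [Field L] [NumberField L] [Algebra K L]
    {X : TwistCtx K L} {B : X.Over} {v : HeightOneSpectrum (𝓞 K)} (x : Fam B v) : ℝ :=
  ∑ u : {w // B.b w = v}, Real.log (locM u.1 e1 (x u))

namespace Ctx

variable {K L : Type*} [Field K] [NumberField K] [Field L] [NumberField L] [Algebra K L]

/-- Logarithms of comparable heights are close. -/
lemma abs_log_sub_le {a b C' : ℝ} (ha : 0 < a) (hb : 0 < b) (hC : 1 ≤ C') (h1 : b ≤ C' * a)
    (h2 : a ≤ C' * b) : |Real.log b - Real.log a| ≤ Real.log C' := by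
  have h1' := Real.log_le_log hb h1
  have h2' := Real.log_le_log ha h2
  rw [Real.log_mul (by linarith) ha.ne'] at h1'
  rw [Real.log_mul (by linarith) hb.ne'] at h2'
  rw [abs_le]
  constructor <;> linarith

/-- The centraliser of the unit translation consists of translations. -/
lemma mk_eq_nB_of_commute {F : Type*} [Field F] [NumberField F] {t : GL (Fin 2) F}
    (ht : Commute t (uB (1 : F))) : ∃ c : F, (ProjGenLinGroup.mk t : G2 F) = nB c := by
  have e00 := congrArg (fun g : GL (Fin 2) F => g.val 0 0) ht.eq
  have e01 := congrArg (fun g : GL (Fin 2) F => g.val 0 1) ht.eq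
  simp [Matrix.mul_apply, Fin.sum_univ_two] at e00 e01
  have h11 : t.val 1 1 ≠ 0 := fun h => Matrix.GeneralLinearGroup.det_ne_zero t (by
    rw [Matrix.det_fin_two, h, e00]; ring)
  refine ⟨t.val 0 1 / t.val 1 1, Matrix.ProjGenLinGroup.mk_eq_mk_iff.mpr
    ⟨Units.mk0 (t.val 1 1)⁻¹ (inv_ne_zero h11), ?_⟩⟩
  have h00 : t.val 0 0 = t.val 1 1 := by linear_combination e01
  apply Units.ext
  ext i j
  fin_cases i <;> fin_cases j <;>
    simp [GeneralLinearGroup.coe_scalar, Matrix.mul_apply, Fin.sum_univ_two, h00, e00, h11,
      div_eq_mul_inv]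

end Ctx

end FermatAgent.LT
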