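import Mathlib
import Fermat.Agent.LT.Descent.Hyp.Term

/-!
# Functions bounded below in the height at infinity

For an integrable function supported where the height at infinity is bounded below, the mass cut
off at a level has an explicit primitive, affine in the level up to an exponentially small error;
on its support the truncation is such a cut.
-/

set_option autoImplicit false

noncomputable section

open Matrix IsDedekindDomain NumberField Filter MeasureTheory
open scoped MatrixGroups ENNReal

namespace FermatAgent.LT.Uni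

open Hyp

variable {F : Type*} [Field F] [NumberField F]

/-- The averaged logarithmic height at infinity. -/
def lamInf (p : InfPts F) : ℝ := -inf1 p / Fintype.card (InfinitePlace F)

/-- The height at infinity is measurable. -/
lemma measurable_lamInf : Measurable (lamInf (F := F)) :=
  measurable_inf1.neg.div_const _

/-- A function at infinity supported where the height is bounded below and integrable against a
power of it. -/
structure Prof (F : Type*) [Field F] [NumberField F] where
  /-- the function -/
  g : InfPts F → ℂ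
  meas : Measurable g
  /-- the bound -/
  m : ℝ
  supp : ∀ p, g p ≠ 0 → m ≤ lamInf p
  int : Integrable (fun p => ‖g p‖ * Real.exp (lamInf p / 2)) (Measure.pi fun _ => H3.vol)

namespace Prof

variable (A : Prof F)

lemma integrable_g : Integrable A.g (Measure.pi fun _ => H3.vol) := by
  refine (A.int.const_mul (Real.exp (-(A.m / 2)))).mono' A.meas.aestronglyMeasurable
    (ae_of_all _ fun p => ?_)
  by_cases h : A.g p = 0
  · simp [h]
  have h1 : 1 ≤ Real.exp (-(A.m / 2)) * Real.exp (lamInf p / 2) := by
    rw [← Real.exp_add]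
    exact Real.one_le_exp (by linarith [A.supp p h])
  calc ‖A.g p‖ ≤ ‖A.g p‖ * (Real.exp (-(A.m / 2)) * Real.exp (lamInf p / 2)) :=
        le_mul_of_one_le_right (norm_nonneg _) h1
    _ = _ := by ring

lemma integrable_lam : Integrable (fun p => A.g p * ((lamInf p : ℝ) : ℂ))
    (Measure.pi fun _ => H3.vol) := by
  refine (A.int.const_mul (2 + |A.m| * Real.exp (-(A.m / 2)))).mono'
    (A.meas.mul (Complex.measurable_ofReal.comp measurable_lamInf)).aestronglyMeasurable
    (ae_of_all _ fun p => ?_)
  rw [norm_mul, Complex.norm_real, Real.norm_eq_abs]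
  by_cases h : A.g p = 0
  · simp [h]
  have hm := A.supp p h
  set E := Real.exp (lamInf p / 2) with hE
  have hE0 : 0 < E := Real.exp_pos _
  have h1 : lamInf p ≤ 2 * E := by linarith [Real.add_one_le_exp (lamInf p / 2)]
  have h2 : 1 ≤ Real.exp (-(A.m / 2)) * E := by
    rw [hE, ← Real.exp_add]
    exact Real.one_le_exp (by linarith)
  have h3 : |A.m| ≤ |A.m| * (Real.exp (-(A.m / 2)) * E) :=
    le_mul_of_one_le_right (abs_nonneg _) h2
  have h4 : |lamInf p| ≤ (2 + |A.m| * Real.exp (-(A.m / 2))) * E := by
    have := Real.exp_pos (-(A.m / 2))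
    rw [abs_le]
    constructor <;> nlinarith [neg_abs_le A.m, abs_nonneg A.m]
  calc ‖A.g p‖ * |lamInf p| ≤ ‖A.g p‖ * ((2 + |A.m| * Real.exp (-(A.m / 2))) * E) :=
        mul_le_mul_of_nonneg_left h4 (norm_nonneg _)
    _ = _ := by ring

/-- The function cut off at a level. -/
def cut (a : ℝ) (p : InfPts F) : ℂ := if a + lamInf p ≤ 0 then A.g p else 0

/-- The mass cut off at a level. -/
def low (a : ℝ) : ℂ := ∫ p, A.cut a p ∂(Measure.pi fun _ => H3.vol)

/-- Its primitive. -/
def prim (a : ℝ) : ℂ :=
  ∫ p, A.g p * ((max 0 (-(a + lamInf p)) : ℝ) : ℂ) ∂(Measure.pi fun _ => H3.vol)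

/-- The mass. -/
def mass : ℂ := ∫ p, A.g p ∂(Measure.pi fun _ => H3.vol)

/-- The logarithmic mass. -/
def ctr : ℂ := -∫ p, A.g p * ((lamInf p : ℝ) : ℂ) ∂(Measure.pi fun _ => H3.vol)

/-- The error of the affine approximation of the primitive. -/
def err (a : ℝ) : ℂ := A.prim a + (a : ℂ) * A.mass - A.ctr

/-- The constant of the error. -/
def size : ℝ := 2 * ∫ p, ‖A.g p‖ * Real.exp (lamInf p / 2) ∂(Measure.pi fun _ => H3.vol)

/-- The size is nonnegative. -/
lemma size_nonneg : 0 ≤ A.size :=
  mul_nonneg zero_le_two (integral_nonneg fun p => by positivity)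

lemma measurable_cut (a : ℝ) : Measurable (A.cut a) :=
  Measurable.ite (measurableSet_le (measurable_lamInf.const_add a) measurable_const) A.meas
    measurable_const

lemma norm_cut_le (a : ℝ) (p : InfPts F) : ‖A.cut a p‖ ≤ ‖A.g p‖ := by
  unfold cut; split_ifs <;> simp

lemma integrable_cut (a : ℝ) : Integrable (A.cut a) (Measure.pi fun _ => H3.vol) :=
  A.integrable_g.norm.mono' (A.measurable_cut a).aestronglyMeasurable
    (ae_of_all _ (A.norm_cut_le a))

/-- The primitive vanishes beyond the lower bound. -/
lemma prim_eq_zero {a : ℝ} (ha : 0 ≤ a + A.m) : A.prim a = 0 := by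
  refine integral_eq_zero_of_ae (ae_of_all _ fun p => ?_)
  by_cases h : A.g p = 0
  · simp [h]
  · have := A.supp p h
    show _ * _ = (0 : ℂ)
    rw [max_eq_left (by linarith), Complex.ofReal_zero, mul_zero]

lemma integrable_prim (a : ℝ) :
    Integrable (fun p => A.g p * ((max 0 (-(a + lamInf p)) : ℝ) : ℂ))
      (Measure.pi fun _ => H3.vol) := by
  refine ((A.integrable_g.norm.const_mul |a|).add A.integrable_lam.norm).mono'
    (A.meas.mul (Complex.measurable_ofReal.comp
      (measurable_const.max (measurable_lamInf.const_add a).neg))).aestronglyMeasurable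
    (ae_of_all _ fun p => ?_)
  simp only [Pi.add_apply, norm_mul, Complex.norm_real, Real.norm_eq_abs]
  have h : |max 0 (-(a + lamInf p))| ≤ |a| + |lamInf p| := by
    rw [abs_of_nonneg (le_max_left _ _)]
    exact max_le (by positivity) ((neg_le_abs _).trans (abs_add_le _ _))
  calc ‖A.g p‖ * |max 0 (-(a + lamInf p))| ≤ ‖A.g p‖ * (|a| + |lamInf p|) :=
        mul_le_mul_of_nonneg_left h (norm_nonneg _)
    _ = _ := by ring

/-- The error of the affine approximation is exponentially small. -/
theorem norm_err_le (a : ℝ) : ‖A.err a‖ ≤ A.size * Real.exp (a / 2) := by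
  have e : A.err a =
      ∫ p, A.g p * ((max 0 (a + lamInf p) : ℝ) : ℂ) ∂(Measure.pi fun _ => H3.vol) := by
    have h2 : Integrable (fun p => (a : ℂ) * A.g p) (Measure.pi fun _ => H3.vol) :=
      A.integrable_g.const_mul _
    have h3 : Integrable (fun p => A.g p * ((max 0 (-(a + lamInf p)) : ℝ) : ℂ) + (a : ℂ) * A.g p)
        (Measure.pi fun _ => H3.vol) := (A.integrable_prim a).add h2
    rw [err, prim, mass, ctr, sub_neg_eq_add, ← integral_const_mul,
      ← integral_add (A.integrable_prim a) h2, ← integral_add h3 A.integrable_lam]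
    refine integral_congr_ae (ae_of_all _ fun p => ?_)
    have key : ∀ x : ℝ, max 0 (-x) + x = max 0 x := fun x => by
      rcases le_total 0 x with h | h
      · rw [max_eq_left (neg_nonpos.mpr h), max_eq_right h, zero_add]
      · rw [max_eq_right (neg_nonneg.mpr h), max_eq_left h, neg_add_cancel]
    dsimp only
    rw [← key (a + lamInf p)]
    push_cast
    ring
  rw [e, size, mul_assoc, ← integral_mul_const, ← integral_const_mul]
  refine norm_integral_le_of_norm_le ((A.int.mul_const _).const_mul _) (ae_of_all _ fun p => ?_)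
  rw [norm_mul, Complex.norm_real, Real.norm_eq_abs, abs_of_nonneg (le_max_left _ _)]
  have h : max 0 (a + lamInf p) ≤ 2 * (Real.exp (lamInf p / 2) * Real.exp (a / 2)) := by
    rw [← Real.exp_add]
    refine max_le (by positivity) ?_
    linarith [Real.add_one_le_exp (lamInf p / 2 + a / 2)]
  calc ‖A.g p‖ * max 0 (a + lamInf p)
      ≤ ‖A.g p‖ * (2 * (Real.exp (lamInf p / 2) * Real.exp (a / 2))) :=
        mul_le_mul_of_nonneg_left h (norm_nonneg _)
    _ = _ := by ring

/-- The primitive has the cut mass as derivative. -/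
theorem integral_low (c : ℝ) {B₁ B₂ : ℝ} (h : B₁ ≤ B₂) :
    IntervalIntegrable (fun s => A.low (s + c)) volume B₁ B₂ ∧
      ∫ s in B₁..B₂, A.low (s + c) = A.prim (B₁ + c) - A.prim (B₂ + c) := by
  classical
  set μ := Measure.pi fun _ : InfinitePlace F => H3.vol
  set ν := (volume : Measure ℝ).restrict (Set.Ioc B₁ B₂)
  have hm : Measurable (Function.uncurry fun s p => A.cut (s + c) p) :=
    Measurable.ite (measurableSet_le ((measurable_fst.add_const c).add
      (measurable_lamInf.comp measurable_snd)) measurable_const)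
      (A.meas.comp measurable_snd) measurable_const
  have hint : Integrable (Function.uncurry fun s p => A.cut (s + c) p) (ν.prod μ) :=
    (A.integrable_g.norm.comp_snd ν).mono' hm.aestronglyMeasurable
      (ae_of_all _ fun z => A.norm_cut_le _ _)
  refine ⟨(intervalIntegrable_iff_integrableOn_Ioc_of_le h).mpr hint.integral_prod_left, ?_⟩
  rw [intervalIntegral.integral_of_le h]
  show ∫ s, ∫ p, A.cut (s + c) p ∂μ ∂ν = _
  rw [integral_integral_swap hint, prim, prim,
    ← integral_sub (A.integrable_prim _) (A.integrable_prim _)]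
  refine integral_congr_ae (ae_of_all _ fun p => ?_)
  dsimp only
  set θ := -(c + lamInf p) with hθ
  have hcut : (fun s => A.cut (s + c) p) = (Set.Iic θ).indicator fun _ => A.g p := by
    funext s
    rw [cut, Set.indicator_apply]
    refine if_congr ?_ rfl rfl
    rw [Set.mem_Iic, hθ]
    constructor <;> intro <;> linarith
  have hlen : volume.real (Set.Ioc B₁ B₂ ∩ Set.Iic θ) =
      max 0 (-(B₁ + c + lamInf p)) - max 0 (-(B₂ + c + lamInf p)) := by
    rw [Set.Ioc_inter_Iic, Real.volume_real_Ioc,
      show -(B₁ + c + lamInf p) = θ - B₁ by rw [hθ]; ring,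
      show -(B₂ + c + lamInf p) = θ - B₂ by rw [hθ]; ring]
    rcases le_total θ B₂ with h1 | h1
    · rw [min_eq_right h1, max_eq_left (show θ - B₂ ≤ 0 by linarith), sub_zero, max_comm]
    · rw [min_eq_left h1, max_eq_left (show 0 ≤ B₂ - B₁ by linarith),
        max_eq_right (show 0 ≤ θ - B₂ by linarith), max_eq_right (show 0 ≤ θ - B₁ by linarith)]
      ring
  rw [hcut, setIntegral_indicator measurableSet_Iic, setIntegral_const, hlen, Complex.real_smul]
  push_cast
  ring

section Totally

variable [IsTotallyComplex F] {U : Level F}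

/-- The averaged logarithmic finite height of the bottom line. -/
def fh (x : FinCoset U) : ℝ := finLog e1 x / Fintype.card (InfinitePlace F)

lemma le_M_iff (s : ℝ) (p : InfPts F) (x : FinCoset U) :
    Real.exp (Fintype.card (InfinitePlace F) * s) ≤ Space.M e1 ((p, x) : Space U) ↔
      s - fh x + lamInf p ≤ 0 := by
  have hn : (0 : ℝ) < Fintype.card (InfinitePlace F) := Nat.cast_pos.mpr Fintype.card_pos
  rw [← Real.le_log_iff_exp_le (Space.M_pos e1_ne_zero _), log_M_e1, mul_comm, ← le_div_iff₀ hn,
    fh, lamInf, add_div, neg_div]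
  constructor <;> intro <;> linarith

/-- The truncation is below the cut at the bottom line. -/
lemma trunc_le (s : ℝ) (p : InfPts F) (x : FinCoset U) (h : ¬s - fh x + lamInf p ≤ 0) :
    Space.trunc (Real.exp (Fintype.card (InfinitePlace F) * s)) ((p, x) : Space U) = 0 := by
  unfold Space.trunc
  rw [if_neg fun hh => h ((le_M_iff s p x).mp (hh _ e1_ne_zero))]

/-- The truncation is below the cut. -/
lemma norm_trunc_le (s : ℝ) (p : InfPts F) (x : FinCoset U) :
    ‖A.g p * (Space.trunc (Real.exp (Fintype.card (InfinitePlace F) * s)) ((p, x) : Space U) : ℂ)‖ ≤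
      ‖A.cut (s - fh x) p‖ := by
  unfold cut
  split_ifs with h
  · rw [norm_mul, Complex.norm_real, Real.norm_eq_abs, abs_of_nonneg (Space.trunc_nonneg _ _)]
    exact mul_le_of_le_one_right (norm_nonneg _) (Space.trunc_le_one _ _)
  · rw [trunc_le s p x h, Complex.ofReal_zero, mul_zero]

/-- Below a bound for the height, the truncation is the cut. -/
lemma trunc_eq (s : ℝ) (p : InfPts F) (x : FinCoset U) (hs : s + fh x ≤ A.m) :
    A.g p * (Space.trunc (Real.exp (Fintype.card (InfinitePlace F) * s)) ((p, x) : Space U) : ℂ) =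
      A.cut (s - fh x) p := by
  unfold cut
  split_ifs with h
  · by_cases hg : A.g p = 0
    · rw [hg, zero_mul]
    have hm := A.supp p hg
    unfold Space.trunc
    rw [if_pos fun ξ hξ => ?_, Complex.ofReal_one, mul_one]
    have h1 := (le_M_iff s p x).mpr h
    by_cases h0 : ξ 0 = 0
    · have hξ1 : ξ 1 ≠ 0 := fun h1 => hξ (by funext i; fin_cases i <;> simp [h0, h1])
      rwa [show ξ = ξ 1 • e1 by funext i; fin_cases i <;> simp [e1, h0],
        Space.M_smul_vec e1_ne_zero hξ1]
    have hk : 1 ≤ Space.M ξ ((p, x) : Space U) * Space.M e1 ((p, x) : Space U) :=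
      Space.one_le_M_mul (by simpa [e1] using h0) _
    have hn : (0 : ℝ) < Fintype.card (InfinitePlace F) := Nat.cast_pos.mpr Fintype.card_pos
    have hlog := Real.log_nonneg hk
    rw [Real.log_mul (Space.M_pos hξ _).ne' (Space.M_pos e1_ne_zero _).ne', log_M_e1] at hlog
    rw [← Real.le_log_iff_exp_le (Space.M_pos hξ _)]
    have h2 : (Fintype.card (InfinitePlace F) : ℝ) * (s + fh x - lamInf p) ≤ 0 :=
      mul_nonpos_of_nonneg_of_nonpos hn.le (by linarith)
    rw [mul_sub, mul_add, fh, lamInf, mul_div_cancel₀ _ hn.ne', mul_div_cancel₀ _ hn.ne'] at h2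
    linarith
  · rw [trunc_le s p x h, Complex.ofReal_zero, mul_zero]

/-- Truncated products are integrable. -/
lemma integrable_trunc (s : ℝ) (x : FinCoset U) :
    Integrable (fun p => A.g p *
      (Space.trunc (Real.exp (Fintype.card (InfinitePlace F) * s)) ((p, x) : Space U) : ℂ))
      (Measure.pi fun _ => H3.vol) :=
  (A.integrable_cut _).norm.mono' (A.meas.mul (Complex.measurable_ofReal.comp
    ((Space.measurable_trunc _).comp (measurable_id.prodMk measurable_const)))).aestronglyMeasurable
    (ae_of_all _ fun p => A.norm_trunc_le s p x)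

end Totally

end Prof

end FermatAgent.LT.Uni
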