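import Mathlib
import Fermat.Agent.LT.Base.Siegel

/-!
# Counting integers in discs

For a field with one complex place the integral elements of bounded absolute value lie in a grid,
so that sums of their inverse absolute values grow at most linearly in the radius.
-/

set_option autoImplicit false

noncomputable section

open Matrix IsDedekindDomain NumberField Filter
open scoped MatrixGroups

namespace FermatAgent.LT.Uni

variable {K : Type*} [Field K] [NumberField K] [Subsingleton (InfinitePlace K)] [IsTotallyComplex K]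
  (w : InfinitePlace K)

/-- The product formula over an imaginary quadratic field. -/
lemma sq_mul_finprod {x : K} (hx : x ≠ 0) : w x ^ 2 * ∏ᶠ v, absV v x = 1 := by
  have h := product_formula hx
  rwa [Finset.prod_eq_single w (fun w' _ h' => absurd (Subsingleton.elim w' w) h')
    (fun h' => absurd (Finset.mem_univ _) h'), IsTotallyComplex.mult_eq] at h

/-- The norm of a principal ideal. -/
lemma absNorm_span (e : 𝓞 K) : ((Ideal.span {e}).absNorm : ℝ) = w (e : K) ^ 2 := by
  have h := InfinitePlace.prod_eq_abs_norm (e : K)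
  rw [Finset.prod_eq_single w (fun w' _ h' => absurd (Subsingleton.elim w' w) h')
    (fun h' => absurd (Finset.mem_univ _) h'), IsTotallyComplex.mult_eq] at h
  rw [h, Ideal.absNorm_span_singleton, RingOfIntegers.coe_eq_algebraMap, ← Algebra.coe_norm_int,
    Rat.cast_abs, Rat.cast_intCast, Nat.cast_natAbs, Int.cast_abs]

lemma one_le_of_integral {x : K} (hx : x ≠ 0) (hi : ∀ v, absV v x ≤ 1) : 1 ≤ w x := by
  have hfin : (Function.mulSupport fun v => absV v x).Finite :=
    Set.Finite.subset (eventually_absV_eq_one hx) fun v hv => hv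
  have h1 : ∏ᶠ v, absV v x ≤ 1 := by
    rw [finprod_eq_prod_of_mulSupport_toFinset_subset _ hfin subset_rfl]
    exact Finset.prod_le_one (fun v _ => AbsoluteValue.nonneg _ _) fun v _ => hi v
  by_contra hlt
  rw [not_le] at hlt
  have h2 : w x ^ 2 < 1 := pow_lt_one₀ (apply_nonneg w x) hlt two_ne_zero
  have := sq_mul_finprod w hx
  nlinarith [sq_nonneg (w x)]

/-- The grid square of a number. -/
def gridMap (x : K) : ℤ × ℤ := (⌊2 * (w.embedding x).re⌋, ⌊2 * (w.embedding x).im⌋)

lemma gridMap_inj {x y : K} (hi : ∀ v, absV v x ≤ 1) (hi' : ∀ v, absV v y ≤ 1)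
    (h : gridMap w x = gridMap w y) : x = y := by
  by_contra hne
  have h1 : 1 ≤ w (x - y) := one_le_of_integral w (sub_ne_zero.mpr hne) fun v => by
    refine ((absV_le_one_iff v _).mpr (((v.valuation K).map_sub x y).trans (max_le ?_ ?_)))
    exacts [(absV_le_one_iff v x).mp (hi v), (absV_le_one_iff v y).mp (hi' v)]
  simp only [gridMap, Prod.mk.injEq] at h
  have hre := Int.abs_sub_lt_one_of_floor_eq_floor h.1
  have him := Int.abs_sub_lt_one_of_floor_eq_floor h.2
  rw [← InfinitePlace.norm_embedding_eq, map_sub] at h1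
  have h2 := Complex.norm_le_abs_re_add_abs_im (w.embedding x - w.embedding y)
  rw [← mul_sub, abs_mul, abs_two] at hre him
  simp only [Complex.sub_re, Complex.sub_im] at h2
  linarith

lemma card_le_sq {k : ℕ} (S : Finset K) (hS : ∀ x ∈ S, (∀ v, absV v x ≤ 1) ∧ w x ≤ (2 : ℝ) ^ k) :
    (S.card : ℝ) ≤ 49 * 4 ^ k := by
  set N : ℤ := 2 ^ (k + 1) + 1
  have hmaps : ∀ x ∈ S, gridMap w x ∈ Finset.Icc (-N) N ×ˢ Finset.Icc (-N) N := by
    intro x hx
    have hw := (hS x hx).2
    rw [← InfinitePlace.norm_embedding_eq] at hw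
    have key : ∀ t : ℝ, |t| ≤ (2 : ℝ) ^ k → ⌊2 * t⌋ ∈ Finset.Icc (-N) N := by
      intro t ht
      obtain ⟨h1, h2⟩ := abs_le.mp ht
      have hN : (N : ℝ) = 2 * 2 ^ k + 1 := by simp [N, pow_succ]; ring
      refine Finset.mem_Icc.mpr ⟨Int.le_floor.mpr ?_, Int.floor_le_iff.mpr ?_⟩
      · push_cast; linarith
      · linarith
    exact Finset.mem_product.mpr ⟨key _ ((Complex.abs_re_le_norm _).trans hw),
      key _ ((Complex.abs_im_le_norm _).trans hw)⟩
  have hcard := Finset.card_le_card_of_injOn (gridMap w) hmaps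
    fun x hx y hy h => gridMap_inj w (hS x hx).1 (hS y hy).1 h
  rw [Finset.card_product, Int.card_Icc, show (N + 1 - -N).toNat = 2 ^ (k + 2) + 3 by
    have e : N + 1 - -N = ((2 ^ (k + 2) + 3 : ℕ) : ℤ) := by simp [N, pow_succ]; ring
    rw [e, Int.toNat_natCast]] at hcard
  have h2 : (1 : ℝ) ≤ 2 ^ k := one_le_pow₀ one_le_two
  calc (S.card : ℝ) ≤ ((2 ^ (k + 2) + 3) * (2 ^ (k + 2) + 3) : ℕ) := by exact_mod_cast hcard
    _ = (4 * 2 ^ k + 3) ^ 2 := by push_cast; ring
    _ ≤ (7 * 2 ^ k) ^ 2 := pow_le_pow_left₀ (by positivity) (by linarith) 2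
    _ = 49 * 4 ^ k := by rw [mul_pow, ← pow_mul, mul_comm k 2, pow_mul]; norm_num

/-- The inverse absolute values of nonzero integers in a disc of radius `2 ^ k` sum to
`O(2 ^ k)`. -/
theorem sum_inv_le_pow (k : ℕ) (S : Finset K)
    (hS : ∀ x ∈ S, x ≠ 0 ∧ (∀ v, absV v x ≤ 1) ∧ w x ≤ (2 : ℝ) ^ k) :
    ∑ x ∈ S, (w x)⁻¹ ≤ 196 * 2 ^ k := by
  classical
  induction k generalizing S with
  | zero =>
    refine (Finset.sum_le_card_nsmul S _ 1 fun x hx =>
      inv_le_one_of_one_le₀ (one_le_of_integral w (hS x hx).1 (hS x hx).2.1)).trans ?_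
    have := card_le_sq w (k := 0) S fun x hx => (hS x hx).2
    rw [nsmul_eq_mul, mul_one]
    norm_num at this ⊢
    linarith
  | succ k ih =>
    rw [← Finset.sum_filter_add_sum_filter_not S (fun x => w x ≤ (2 : ℝ) ^ k)]
    have h1 := ih (S.filter fun x => w x ≤ (2 : ℝ) ^ k) fun x hx =>
      ⟨(hS x (Finset.mem_filter.mp hx).1).1, (hS x (Finset.mem_filter.mp hx).1).2.1,
        (Finset.mem_filter.mp hx).2⟩
    set T := S.filter fun x => ¬w x ≤ (2 : ℝ) ^ k
    have h2 : ∑ x ∈ T, (w x)⁻¹ ≤ (T.card : ℝ) * ((2 : ℝ) ^ k)⁻¹ := by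
      refine (Finset.sum_le_card_nsmul T _ _ fun x hx => ?_).trans (le_of_eq (nsmul_eq_mul _ _))
      exact inv_anti₀ (by positivity) (not_le.mp (Finset.mem_filter.mp hx).2).le
    have h3 := card_le_sq w (k := k + 1) T fun x hx => (hS x (Finset.mem_filter.mp hx).1).2
    have h4 : (T.card : ℝ) * ((2 : ℝ) ^ k)⁻¹ ≤ 196 * 2 ^ k := by
      rw [mul_inv_le_iff₀ (by positivity)]
      refine h3.trans (le_of_eq ?_)
      rw [pow_succ, mul_assoc (196 : ℝ), ← mul_pow]
      norm_num
      ring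
    rw [pow_succ]
    linarith

/-- Inverse absolute values of nonzero elements of a fractional ideal sum at most linearly in the
radius. -/
theorem exists_sum_inv_le {e : K} (he : e ≠ 0) :
    ∃ C : ℝ, 0 ≤ C ∧ ∀ (Y : ℝ), 0 ≤ Y → ∀ S : Finset K,
      (∀ x ∈ S, x ≠ 0 ∧ (∀ v, absV v (x * e) ≤ 1) ∧ w x ≤ Y) → ∑ x ∈ S, (w x)⁻¹ ≤ C * Y := by
  classical
  have hwe : 0 < w e := (InfinitePlace.pos_iff).mpr he
  refine ⟨392 * w e ^ 2, by positivity, fun Y hY S hS => ?_⟩
  rcases S.eq_empty_or_nonempty with rfl | ⟨x₀, hx₀⟩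
  · simp; positivity
  set Z := Y * w e
  have hZ : 1 ≤ Z := by
    obtain ⟨h0, hi, hx⟩ := hS x₀ hx₀
    refine (one_le_of_integral w (mul_ne_zero h0 he) hi).trans ?_
    rw [map_mul]
    exact mul_le_mul_of_nonneg_right hx hwe.le
  obtain ⟨k, hk, hk'⟩ := exists_nat_pow_near hZ (one_lt_two (α := ℝ))
  have h := sum_inv_le_pow w (k + 1) (S.image (· * e)) fun y hy => by
    obtain ⟨x, hx, rfl⟩ := Finset.mem_image.mp hy
    obtain ⟨h0, hi, hxY⟩ := hS x hx
    refine ⟨mul_ne_zero h0 he, hi, ?_⟩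
    rw [map_mul]
    exact (mul_le_mul_of_nonneg_right hxY hwe.le).trans hk'.le
  rw [Finset.sum_image fun a _ b _ h => mul_right_cancel₀ he h] at h
  simp only [map_mul, mul_inv, ← Finset.sum_mul] at h
  rw [← div_eq_mul_inv, div_le_iff₀ hwe] at h
  refine h.trans ?_
  calc 196 * 2 ^ (k + 1) * w e = 392 * 2 ^ k * w e := by ring
    _ ≤ 392 * Z * w e := by gcongr
    _ = _ := by simp only [Z]; ring

omit [IsTotallyComplex K] in
/-- A fractional ideal meets each disc in a finite set. -/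
theorem finite_bounded_integral {e : K} (he : e ≠ 0) (Y : ℝ) :
    {x : K | (∀ v, absV v (x * e) ≤ 1) ∧ w x ≤ Y}.Finite := by
  refine (finite_of_bounded (fun v => (absV v e)⁻¹) ((eventually_absV_eq_one he).mono fun v hv => by
    simp [hv]) Y).subset fun x hx => ⟨fun v => ?_, fun w' => ?_⟩
  · rw [← one_div, le_div_iff₀ (AbsoluteValue.pos _ he), ← map_mul]
    exact hx.1 v
  · rw [Subsingleton.elim w' w]
    exact hx.2

end FermatAgent.LT.Uni
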