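import Mathlib
import Fermat.Agent.LT.Base.Lattice
import Fermat.Agent.LT.Descent.Hyp.Fin
import Fermat.Agent.LT.Descent.Hyp.Term
import Fermat.Agent.LT.Descent.Uni.Local
import Fermat.Agent.LT.Descent.Uni.Count

/-!
# The weight of the translations

A period box at infinity times the local partition weights sums to one along the rational
translations.  The weighted cosets moved boundedly by a translation are few in each height range.
-/

set_option autoImplicit false

noncomputable section

open Matrix IsDedekindDomain NumberField Filter MeasureTheory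
open scoped MatrixGroups

namespace FermatAgent.LT.Uni

open Whit Hyp

variable {K : Type*} [Field K] [NumberField K] [IsTotallyComplex K]

variable (K) in
/-- The period box of the integral translations. -/
def box : Set (InfPts K) := {p | (fun w => (p w).z) ∈ ZSpan.fundamentalDomain (infBasis K)}

/-- The box is measurable. -/
lemma measurableSet_box : MeasurableSet (box K) :=
  (ZSpan.fundamentalDomain_measurableSet _).preimage
    (f := fun p : InfPts K => fun w => (p w).z)
    (measurable_pi_lambda _ fun w => H3.continuous_z.measurable.comp (measurable_pi_apply w))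

variable (K) in
/-- The box is horizontally bounded. -/
lemma exists_box_bound : ∃ B : ℝ, ∀ p ∈ box K, ∀ w, ‖(p w).z‖ ≤ B := by
  obtain ⟨B, hB⟩ := (ZSpan.fundamentalDomain_isBounded (infBasis K)).exists_norm_le
  exact ⟨B, fun p hp w => (norm_le_pi_norm (fun w => (p w).z) w).trans (hB _ hp)⟩

/-- Each orbit of the integral translations meets the box once. -/
lemma existsUnique_box (p : InfPts K) :
    ∃! k : 𝓞 K, (nB (k : K) : G2 K) • p ∈ box K := by
  have hz : ∀ b : K, (fun w => (((nB b : G2 K) • p) w).z) = infEmb K b + fun w => (p w).z := by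
    intro b
    funext w
    rw [Pi.add_apply, infEmb_apply, (uB_smul_inf b p w).2, add_comm]
  obtain ⟨a, ha, huniq⟩ := ZSpan.exist_unique_vadd_mem_fundamentalDomain (infBasis K)
    (fun w => (p w).z)
  obtain ⟨k, hk⟩ := (mem_span_infBasis K).mp a.2
  refine ⟨k, ?_, fun k' hk' => ?_⟩
  · show _ ∈ ZSpan.fundamentalDomain (infBasis K)
    rw [hz, hk]
    exact ha
  · have hk'' : infEmb K (k' : K) ∈ Submodule.span ℤ (Set.range (infBasis K)) :=
      (mem_span_infBasis K).mpr ⟨k', rfl⟩
    have e := huniq ⟨_, hk''⟩ (by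
      change (fun w => (((nB (k' : K) : G2 K) • p) w).z) ∈
          ZSpan.fundamentalDomain (infBasis K) at hk'
      rwa [hz] at hk')
    exact RingOfIntegers.ext ((infEmb K).injective ((congrArg Subtype.val e).trans hk.symm))

variable {U : Level K}

section

omit [IsTotallyComplex K]

/-- The finite part of the weight. -/
def Phi (z : FinCoset U) : ℝ := ∏ᶠ v, pw (z.1 v)

lemma mulSupport_pw (z : FinCoset U) :
    (Function.mulSupport fun v => pw (z.1 v)) ⊆ {v | z.1 v ≠ QuotientGroup.mk 1} :=
  fun v hv hb => hv (by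
    show pw (z.1 v) = 1
    rw [hb, pw_base])

/-- Almost all components are trivial. -/
lemma finite_nonbase (z : FinCoset U) : {v | z.1 v ≠ QuotientGroup.mk 1}.Finite :=
  eventually_cofinite.mp z.2

/-- The weight as a finite product. -/
lemma Phi_eq_prod (z : FinCoset U) (S : Finset (HeightOneSpectrum (𝓞 K)))
    (hS : ∀ v ∉ S, z.1 v = QuotientGroup.mk 1) : Phi z = ∏ v ∈ S, pw (z.1 v) :=
  finprod_eq_prod_of_mulSupport_subset _ fun v hv => by_contra fun h => mulSupport_pw z hv (hS v h)

/-- The weight is nonnegative. -/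
lemma Phi_nonneg (z : FinCoset U) : 0 ≤ Phi z := finprod_nonneg fun _ => pw_nonneg _

lemma pw_ne_zero_of_Phi {z : FinCoset U} (h : Phi z ≠ 0) (v : HeightOneSpectrum (𝓞 K)) :
    pw (z.1 v) ≠ 0 := by
  classical
  intro h0
  refine h ?_
  rw [Phi_eq_prod z (insert v (finite_nonbase z).toFinset) fun u hu => by
    simpa using (Finset.mem_insert.not.mp hu |> not_or.mp).2]
  exact Finset.prod_eq_zero (Finset.mem_insert_self _ _) h0

/-- The logarithm of the finite height of the bottom line. -/
abbrev lh (z : FinCoset U) : ℝ := finLog e1 z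

/-- The height as a finite sum. -/
lemma lh_eq_sum (z : FinCoset U) (S : Finset (HeightOneSpectrum (𝓞 K)))
    (hS : ∀ v ∉ S, z.1 v = QuotientGroup.mk 1) :
    lh z = ∑ v ∈ S, Real.log (locM v e1 (z.1 v)) := by
  rw [lh, finLog, finprod_eq_prod_of_mulSupport_subset _ (s := S) fun v hv =>
    by_contra fun h => hv (by
    show locM v e1 (z.1 v) = 1
    rw [hS v h]
    exact locM_base (Or.inl rfl)), Real.log_prod fun v _ => (locM_pos_e1 _).ne']

/-- The weight is bounded by the height. -/
lemma Phi_le_exp (z : FinCoset U) : Phi z ≤ Real.exp (lh z) := by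
  have hS : ∀ v ∉ (finite_nonbase z).toFinset, z.1 v = QuotientGroup.mk 1 := fun v hv => by
    simpa using hv
  rw [Phi_eq_prod z _ hS, lh_eq_sum z _ hS, Real.exp_sum]
  refine Finset.prod_le_prod (fun v _ => pw_nonneg _) fun v _ => ?_
  rw [Real.exp_log (locM_pos_e1 _)]
  exact pw_le _

end

/-- The weight. -/
def theta (y : Space U) : ℝ := (box K).indicator (fun _ => 1) y.1 * Phi y.2

/-- The weight is measurable. -/
lemma measurable_theta : Measurable (theta (U := U)) :=
  ((measurable_const.indicator measurableSet_box).comp measurable_fst).mul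
    ((measurable_of_countable Phi).comp measurable_snd)

/-- The weight is nonnegative. -/
lemma theta_nonneg (y : Space U) : 0 ≤ theta y :=
  mul_nonneg (Set.indicator_nonneg (fun _ _ => zero_le_one) _) (Phi_nonneg _)

variable [Subsingleton (InfinitePlace K)] [IsPrincipalIdealRing (𝓞 K)]

omit [IsTotallyComplex K] [Subsingleton (InfinitePlace K)] [IsPrincipalIdealRing (𝓞 K)] in
/-- At each place the local weight along the translations is the mass of a disc. -/
private lemma exists_local_params (z : FinCoset U) (v : HeightOneSpectrum (𝓞 K)) :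
    ∃ β r : K, 1 ≤ absV v r ∧ (z.1 v = QuotientGroup.mk 1 → β = 0 ∧ r = 1) ∧
      ∀ b : K, pw ((nB b : G2 K) • z.1 v) =
        if absV v (b + β) ≤ absV v r then (absV v r)⁻¹ else 0 := by
  by_cases hb : z.1 v = QuotientGroup.mk 1
  · refine ⟨0, 1, by simp, fun _ => ⟨rfl, rfl⟩, fun b => ?_⟩
    rw [hb, pw_base_nB]
    simp [absV_le_one_iff]
  · obtain ⟨β, r, h1, h2⟩ := exists_pw_nB (z.1 v)
    exact ⟨β, r, h1, fun h => absurd h hb, h2⟩

omit [IsTotallyComplex K] [Subsingleton (InfinitePlace K)] [IsPrincipalIdealRing (𝓞 K)] in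
/-- Lying in all the discs is being integral after scaling about a common centre. -/
private lemma forall_absV_le_iff (β r : HeightOneSpectrum (𝓞 K) → K) (e β₀ : K)
    (hr1 : ∀ v, 1 ≤ absV v (r v)) (he' : ∀ v, absV v e = (absV v (r v))⁻¹)
    (hclose : ∀ v, absV v (β₀ + β v) ≤ absV v (r v)) (b : K) :
    (∀ v, absV v (b + β v) ≤ absV v (r v)) ↔ ∃ o : 𝓞 K, (o : K) = e * (b - β₀) := by
  have key : ∀ v, absV v (b + β v) ≤ absV v (r v) ↔ v.valuation K (e * (b - β₀)) ≤ 1 := by
    intro v
    rw [← absV_le_one_iff, map_mul, he', inv_mul_le_one₀ (by linarith [hr1 v])]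
    have h1 : absV v (β₀ + β v) ≤ absV v (r v) := hclose v
    constructor
    · intro h
      rw [show b - β₀ = (b + β v) + -(β₀ + β v) by ring]
      exact (absV_add_le v _ _).trans (max_le h (by rwa [AbsoluteValue.map_neg]))
    · intro h
      rw [show b + β v = (b - β₀) + (β₀ + β v) by ring]
      exact (absV_add_le v _ _).trans (max_le h h1)
  simp only [key]
  refine ⟨fun h => HeightOneSpectrum.mem_integers_of_valuation_le_one K _ h, ?_⟩
  rintro ⟨o, ho⟩ v
  rw [← ho]
  exact v.valuation_le_one _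

omit [Subsingleton (InfinitePlace K)] [IsPrincipalIdealRing (𝓞 K)] in
/-- The residues of a nonzero integer are as many as its absolute values make up. -/
private lemma card_mul_prod_absV [Subsingleton (InfinitePlace K)] {a : 𝓞 K} (ha : (a : K) ≠ 0)
    (Bd : Finset (HeightOneSpectrum (𝓞 K))) (h : ∀ v ∉ Bd, absV v (a : K) = 1) :
    (Nat.card (𝓞 K ⧸ Ideal.span {a}) : ℝ) * ∏ v ∈ Bd, absV v (a : K) = 1 := by
  obtain ⟨w⟩ := (inferInstance : Nonempty (InfinitePlace K))
  rw [← finprod_eq_prod_of_mulSupport_subset (fun v => absV v (a : K)) fun v hv =>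
      by_contra fun hv' => hv (h v hv'),
    ← Submodule.cardQuot_apply, ← Ideal.absNorm_apply, absNorm_span w]
  exact sq_mul_finprod w ha

/-- The weight sums to one along the translations. -/
theorem hasSum_theta (y : Space U) : HasSum (fun b : K => theta ((nB b : G2 K) • y)) 1 := by
  classical
  obtain ⟨p, z⟩ := y
  choose β r hr1 hbase hpw using exists_local_params z
  set Bd := (finite_nonbase z).toFinset
  have hBd : ∀ v ∉ Bd, z.1 v = QuotientGroup.mk 1 := fun v hv => by simpa [Bd] using hv
  have hr0 : ∀ v, r v ≠ 0 := fun v h => by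
    have := hr1 v
    rw [h, map_zero] at this
    linarith
  obtain ⟨e, he⟩ := exists_absV (fun v => (Units.mk0 (r v) (hr0 v))⁻¹) (by
    filter_upwards [z.2] with v hv
    simp [(hbase v hv).2])
  have he' : ∀ v, absV v (e : K) = (absV v (r v))⁻¹ := fun v => by rw [he]; simp
  have hel : ∀ v, absV v (e : K) ≤ 1 := fun v => by
    rw [he']; exact inv_le_one_of_one_le₀ (hr1 v)
  obtain ⟨eO, heO⟩ := HeightOneSpectrum.mem_integers_of_valuation_le_one K (e : K) fun v =>
    (absV_le_one_iff v _).mp (hel v)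
  change (eO : K) = e at heO
  have he0 : (e : K) ≠ 0 := e.ne_zero
  obtain ⟨β₀, hβ₀, hβ₀'⟩ := exists_strong_approx Bd (fun v => -β v)
    (fun v => v.valuation K (r v)) fun v => by simpa using hr0 v
  have hclose : ∀ v, absV v (β₀ + β v) ≤ absV v (r v) := by
    intro v
    rw [absV_le_absV_iff _ (hr0 v)]
    by_cases hv : v ∈ Bd
    · simpa using hβ₀ v hv
    · obtain ⟨h1, h2⟩ := hbase v (hBd v hv)
      simpa [h1, h2] using hβ₀' v hv
  have hiff := forall_absV_le_iff β r (e : K) β₀ hr1 he' hclose
  -- one translation in each class of integers modulo `e`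
  set I : Ideal (𝓞 K) := Ideal.span {eO}
  have hI0 : I ≠ ⊥ := by
    rw [Ne, Ideal.span_singleton_eq_bot]
    intro h
    exact he0 (by rw [← heO, h]; simp)
  have : Finite (𝓞 K ⧸ I) := Ideal.finiteQuotientOfFreeOfNeBot _ hI0
  have := Fintype.ofFinite (𝓞 K ⧸ I)
  let b₁ : 𝓞 K ⧸ I → K := fun q => β₀ + (q.out : K) / e
  choose kk hkk hkk' using fun q => existsUnique_box ((nB (b₁ q) : G2 K) • p)
  let f : 𝓞 K ⧸ I → K := fun q => (kk q : K) + b₁ q
  have hf1 : ∀ q, (nB (f q) : G2 K) • p ∈ box K := fun q => by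
    simp only [f, nB_add, mul_smul]; exact hkk q
  have hf2 : ∀ q, ∀ v, absV v (f q + β v) ≤ absV v (r v) := fun q => by
    refine (hiff _).mpr ⟨eO * kk q + q.out, ?_⟩
    simp only [f, b₁, map_add, map_mul, heO]
    field_simp
    ring
  have hclass : ∀ (q : 𝓞 K ⧸ I) (o : 𝓞 K), (o : K) = e * (f q - β₀) →
      Ideal.Quotient.mk I o = q := by
    intro q o ho
    rw [show o = eO * kk q + q.out from RingOfIntegers.ext (by
      rw [ho]; simp only [f, b₁, map_add, map_mul, heO]; field_simp; ring), map_add, map_mul,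
      Ideal.Quotient.eq_zero_iff_mem.mpr (Ideal.mem_span_singleton_self _), zero_mul, zero_add]
    exact Quotient.out_eq q
  have hinj : Function.Injective f := fun q q' h => by
    obtain ⟨o, ho⟩ := (hiff _).mp (hf2 q)
    rw [← hclass q o ho, ← hclass q' o (h ▸ ho)]
  have hsupp : ∀ b : K, b ∉ Finset.univ.image f →
      theta ((nB b : G2 K) • ((p, z) : Space U)) = 0 := by
    intro b hb
    by_contra hne
    simp only [theta, Prod.smul_fst, Prod.smul_snd, mul_eq_zero, not_or] at hne
    obtain ⟨hbox, hPhi⟩ := hne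
    have hbox' : (nB b : G2 K) • p ∈ box K := by
      by_contra h
      exact hbox (Set.indicator_of_notMem h _)
    obtain ⟨o, ho⟩ := (hiff b).mp fun v => by
      have h := pw_ne_zero_of_Phi hPhi v
      rw [FinCoset.smul_apply, hpw] at h
      by_contra hh
      exact h (if_neg hh)
    refine hb (Finset.mem_image.mpr ⟨Ideal.Quotient.mk I o, Finset.mem_univ _, ?_⟩)
    set q := Ideal.Quotient.mk I o
    obtain ⟨c, hc⟩ := Ideal.mem_span_singleton.mp
      (Ideal.Quotient.eq.mp (Quotient.out_eq q : Ideal.Quotient.mk I q.out = q).symm)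
    have hc' : (o : K) - (q.out : K) = e * c := by
      rw [← heO]
      exact_mod_cast congrArg (fun x : 𝓞 K => (x : K)) hc
    have eb : (c : K) + b₁ q = b := by
      simp only [b₁]
      field_simp
      linear_combination ho - hc'
    show (kk q : K) + b₁ q = b
    rw [← hkk' q c (by dsimp only; rwa [← mul_smul, ← nB_add, eb]), eb]
  have hval : ∀ q, theta ((nB (f q) : G2 K) • ((p, z) : Space U)) = ∏ v ∈ Bd, absV v (e : K) := by
    intro q
    show (box K).indicator (fun _ => (1 : ℝ)) ((nB (f q) : G2 K) • p) *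
        Phi ((nB (f q) : G2 K) • z) = _
    rw [Set.indicator_of_mem (hf1 q), one_mul, Phi,
      finprod_eq_prod_of_mulSupport_subset (s := Bd) _ fun v hv => by_contra fun h => hv ?_]
    · exact Finset.prod_congr rfl fun v _ => by
        rw [FinCoset.smul_apply, hpw, if_pos (hf2 q v), he']
    · show pw (((nB (f q) : G2 K) • z).1 v) = 1
      rw [FinCoset.smul_apply, hpw, if_pos (hf2 q v), (hbase v (hBd v h)).2]
      simp
  have htot : ∑ b ∈ Finset.univ.image f, theta ((nB b : G2 K) • ((p, z) : Space U)) = 1 := by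
    rw [Finset.sum_image fun a _ c _ h => hinj h, Finset.sum_congr rfl fun q _ => hval q,
      Finset.sum_const, Finset.card_univ, nsmul_eq_mul]
    rw [← Nat.card_eq_fintype_card]
    simp only [← heO]
    exact card_mul_prod_absV (by rwa [heO]) Bd fun v hv => by
      rw [heO, he', (hbase v (hBd v hv)).2]
      simp
  rw [← htot]
  exact hasSum_sum_of_ne_finset_zero hsupp

/-- The weighted points moved boundedly by the unit translation. -/
def supp (T : Finset (HeightOneSpectrum (𝓞 K))) (Cb : HeightOneSpectrum (𝓞 K) → ℝ) :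
    Set (FinCoset U) :=
  {z | Phi z ≠ 0 ∧ (∀ v ∈ T, locM v e1 (z.1 v) ≤ Cb v) ∧ ∀ v ∉ T, (nB 1 : G2 K) • z.1 v = z.1 v}

variable (hU : U.IsCongr) {T : Finset (HeightOneSpectrum (𝓞 K))}
  (hT : ∀ v ∉ T, U.loc v = locK v) (Cb : HeightOneSpectrum (𝓞 K) → ℝ) (w : InfinitePlace K)

include hU hT in
open Classical in
/-- Scaled points of the support lie in a finite set, the scalars in a fractional ideal. -/
lemma exists_scaled :
    ∃ (F : Finset (FinCoset U)) (e : K), e ≠ 0 ∧ ∀ z ∈ supp (U := U) T Cb, ∃ (d : Kˣ),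
      (∀ v, absV v ((d : K) * e) ≤ 1) ∧ (dG d : G2 K) • z ∈ F ∧ Real.exp (lh z / 2) = (w d)⁻¹ := by
  classical
  have hfin : ∀ v : T, (slab U v.1 (max (Cb v.1) 1 ^ 2)).Finite := fun v => finite_slab hU _
  let mkF : (∀ v : T, G2 K ⧸ U.loc v.1) → FinCoset U := fun a =>
    ⟨fun v => if h : v ∈ T then a ⟨v, h⟩ else QuotientGroup.mk 1, by
      filter_upwards [T.finite_toSet.compl_mem_cofinite] with v hv
      exact dif_neg (by simpa using hv)⟩
  set F := ((Set.Finite.pi hfin).image mkF).toFinset
  have hpow : ∀ v : HeightOneSpectrum (𝓞 K), ∃ a : Kˣ, absV v (a : K) * max (Cb v) 1 ≤ 1 := by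
    intro v
    obtain ⟨π, hπ⟩ := v.valuation_exists_uniformizer K
    have hπ0 : π ≠ 0 := fun h => WithZero.exp_ne_zero (by rw [← hπ, h, map_zero])
    have hq : (1 : ℝ) < v.asIdeal.absNorm := by exact_mod_cast HeightOneSpectrum.one_lt_absNorm v
    obtain ⟨n, hn⟩ := pow_unbounded_of_one_lt (max (Cb v) 1) hq
    refine ⟨Units.mk0 _ (pow_ne_zero n hπ0), ?_⟩
    rw [Units.val_mk0, map_pow, absV_of_valuation hπ, _root_.zpow_neg, zpow_one, inv_pow,
      inv_mul_le_one₀ (by positivity)]
    exact hn.le
  choose a ha using hpow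
  obtain ⟨e, he⟩ := exists_absV (fun v => if v ∈ T then a v else 1) (by
    filter_upwards [T.finite_toSet.compl_mem_cofinite] with v hv
    simp [show v ∉ T by simpa using hv])
  refine ⟨F, e, e.ne_zero, fun z hz => ?_⟩
  obtain ⟨hPhi, hT1, hT2⟩ := hz
  choose f hf using fun v => exists_absV_eq_locM (z.1 v)
  obtain ⟨d, hd⟩ := exists_absV f (by
    filter_upwards [eventually_locM_eq_one e1_ne_zero z] with v hv
    rw [hf, hv])
  have hd' : ∀ v, absV v (d : K) = locM v e1 (z.1 v) := fun v => (hd v).trans (hf v)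
  have hout : ∀ v ∉ T, locM v e1 (z.1 v) ≤ 1 := fun v hv =>
    locM_e1_le_one (congrArg _ (hT2 v hv))
  refine ⟨d, fun v => ?_, ?_, ?_⟩
  · rw [map_mul, hd', he]
    by_cases hv : v ∈ T
    · rw [if_pos hv, mul_comm]
      exact (mul_le_mul_of_nonneg_left ((hT1 v hv).trans (le_max_left _ _))
        (AbsoluteValue.nonneg _ _)).trans (ha v)
    · rw [if_neg hv, Units.val_one, map_one, mul_one]
      exact hout v hv
  · refine (Set.Finite.mem_toFinset _).mpr ⟨fun v => ((dG d : G2 K) • z).1 v.1, fun v _ => ?_, ?_⟩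
    · exact scale_mem_slab (pw_ne_zero_of_Phi hPhi _) (hd' _) (hT1 _ v.2)
    · refine FinCoset.ext fun v => ?_
      show (if h : v ∈ T then _ else _) = _
      split_ifs with hv
      · rfl
      · refine (slab_one_eq (hT v hv) ?_).symm
        have := scale_mem_slab (pw_ne_zero_of_Phi hPhi v) (hd' v) (hout v hv)
        rwa [max_self, one_pow] at this
  · set S := (finite_nonbase z).toFinset
    have hS : ∀ v ∉ S, z.1 v = QuotientGroup.mk 1 := fun v hv => by simpa [S] using hv
    have hprod : ∏ᶠ v, absV v (d : K) = Real.exp (lh z) := by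
      rw [lh_eq_sum z S hS, Real.exp_sum, finprod_eq_prod_of_mulSupport_subset (s := S) _
        fun v hv => by_contra fun h => hv (by
          show absV v (d : K) = 1
          rw [hd', hS v h]
          exact locM_base (Or.inl rfl))]
      exact Finset.prod_congr rfl fun v _ => by rw [hd', Real.exp_log (locM_pos_e1 _)]
    have h := sq_mul_finprod w d.ne_zero
    rw [hprod] at h
    have hsq : Real.exp (lh z / 2) ^ 2 = ((w (d : K))⁻¹) ^ 2 := by
      rw [← Real.exp_nat_mul, show ((2 : ℕ) : ℝ) * (lh z / 2) = lh z by push_cast; ring, inv_pow]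
      exact eq_inv_of_mul_eq_one_right h
    exact (pow_left_inj₀ (Real.exp_pos _).le (inv_nonneg.mpr (apply_nonneg w _)) two_ne_zero).mp hsq

include hU hT w in
/-- In each height range there are only finitely many weighted points. -/
theorem finite_supp_ge (s : ℝ) : {z ∈ supp (U := U) T Cb | s ≤ lh z}.Finite := by
  classical
  obtain ⟨F, e, he, hF⟩ := exists_scaled hU hT Cb w
  refine (((finite_bounded_integral w he (Real.exp (-s / 2))).prod F.finite_toSet).image
    fun x : K × FinCoset U =>
      if h : x.1 = 0 then x.2 else (dG (Units.mk0 x.1 h) : G2 K)⁻¹ • x.2).subset ?_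
  rintro z ⟨hz, hs⟩
  obtain ⟨d, hd, hmem, hexp⟩ := hF z hz
  refine ⟨((d : K), (dG d : G2 K) • z), ⟨⟨hd, ?_⟩, hmem⟩, ?_⟩
  · rw [show (-s / 2) = -(s / 2) by ring, Real.exp_neg, le_inv_comm₀ ?_ (Real.exp_pos _), ← hexp]
    · exact Real.exp_le_exp.mpr (by linarith)
    · exact InfinitePlace.pos_iff.mpr d.ne_zero
  · dsimp only
    rw [dif_neg d.ne_zero, Units.mk0_val, inv_smul_smul]

include hU hT w in
open Classical in
/-- The square roots of the heights of weighted cosets of height at least `exp s` sum to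
`O(exp (-s / 2))`. -/
theorem exists_sum_exp_le : ∃ C : ℝ, 0 ≤ C ∧ ∀ s : ℝ, ∀ Z : Finset (FinCoset U),
    (∀ z ∈ Z, z ∈ supp (U := U) T Cb ∧ s ≤ lh z) →
      ∑ z ∈ Z, Real.exp (lh z / 2) ≤ C * Real.exp (-s / 2) := by
  classical
  obtain ⟨F, e, he, hF⟩ := exists_scaled hU hT Cb w
  obtain ⟨C, hC0, hC⟩ := exists_sum_inv_le w he
  refine ⟨F.card * C, by positivity, fun s Z hZ => ?_⟩
  choose! d hd hmem hexp using hF
  let g : FinCoset U → K × FinCoset U := fun z => ((d z : K), (dG (d z) : G2 K) • z)
  have hg : Set.InjOn g Z := fun a _ b _ h => by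
    simp only [g, Prod.mk.injEq, Units.val_inj] at h
    have h2 := h.2
    rw [h.1] at h2
    exact smul_left_cancel _ h2
  set D := Z.image fun z => (d z : K)
  calc ∑ z ∈ Z, Real.exp (lh z / 2) = ∑ x ∈ Z.image g, (w x.1)⁻¹ := by
        rw [Finset.sum_image hg]
        exact Finset.sum_congr rfl fun z hz => hexp z (hZ z hz).1
    _ ≤ ∑ x ∈ D ×ˢ F, (w x.1)⁻¹ := by
        refine Finset.sum_le_sum_of_subset_of_nonneg (fun x hx => ?_) fun x _ _ =>
          inv_nonneg.mpr (apply_nonneg w _)
        obtain ⟨z, hz, rfl⟩ := Finset.mem_image.mp hx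
        exact Finset.mem_product.mpr ⟨Finset.mem_image_of_mem _ hz, hmem z (hZ z hz).1⟩
    _ = F.card * ∑ x ∈ D, (w x)⁻¹ := by
        rw [Finset.sum_product, Finset.mul_sum]
        exact Finset.sum_congr rfl fun x _ => by simp
    _ ≤ F.card * (C * Real.exp (-s / 2)) := by
        refine mul_le_mul_of_nonneg_left (hC _ (Real.exp_pos _).le D fun x hx => ?_)
          (Nat.cast_nonneg _)
        obtain ⟨z, hz, rfl⟩ := Finset.mem_image.mp hx
        obtain ⟨hsz, hs⟩ := hZ z hz
        refine ⟨(d z).ne_zero, hd z hsz, ?_⟩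
        rw [show (-s / 2) = -(s / 2) by ring, Real.exp_neg,
          le_inv_comm₀ (InfinitePlace.pos_iff.mpr (d z).ne_zero) (Real.exp_pos _), ← hexp z hsz]
        exact Real.exp_le_exp.mpr (by linarith)
    _ = _ := by ring

end FermatAgent.LT.Uni
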