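import Mathlib
import Fermat.Agent.LT.Descent.Hyp.Inf
import Fermat.Agent.LT.Descent.GlueAbs
import Fermat.Agent.LT.Descent.Uni.Weight
import Fermat.Agent.LT.Descent.Uni.Prof

/-!
# The archimedean factors of the translation class

On the period box the composite kernel at the unit translation and the twisted product at a third
of it live where the height is bounded below; their masses agree.
-/

set_option autoImplicit false

noncomputable section

open Matrix IsDedekindDomain NumberField Filter MeasureTheory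
open scoped MatrixGroups ENNReal

namespace FermatAgent.LT

namespace H3

/-- A point moved boundedly by the unit translation is high. -/
lemma le_t_of_coshDist {p q : H3} (hz : q.z = p.z + 1) (ht : q.t = p.t) {ρ : ℝ}
    (h : coshDist q p ≤ ρ) : min 1 (1 / (2 * max ρ 1)) ≤ p.t := by
  obtain ⟨-, -, h3⟩ := coord_bounds_of_coshDist h
  rw [hz, ht, add_sub_cancel_left, map_one] at h3
  have hp := p.t_pos
  rcases le_total 1 p.t with h1 | h1
  · exact (min_le_left _ _).trans h1
  · refine (min_le_right _ _).trans ?_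
    rw [div_le_iff₀ (by positivity)]
    nlinarith [le_max_left ρ 1, le_max_right ρ 1, mul_le_mul_of_nonneg_right h1 hp.le,
      mul_le_mul_of_nonneg_left (le_max_left ρ 1) (mul_self_nonneg p.t)]

end H3

namespace Uni

open Whit Hyp TwistCtx

variable {K L : Type*} [Field K] [NumberField K] [Field L] [NumberField L] [Algebra K L]
  (X : TwistCtx K L)

section Base

variable [IsTotallyComplex K]

variable (K) in
/-- The indicator of the period box. -/
def boxInd (p : InfPts K) : ℝ := (box K).indicator (fun _ => (1 : ℝ)) p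

lemma measurable_boxInd : Measurable (boxInd K) :=
  measurable_const.indicator measurableSet_box

lemma boxInd_nonneg (p : InfPts K) : 0 ≤ boxInd K p :=
  Set.indicator_nonneg (fun _ _ => zero_le_one) _

lemma boxInd_le_one (p : InfPts K) : boxInd K p ≤ 1 :=
  Set.indicator_le_self' (fun _ _ => zero_le_one) p

/-- The height on the part of the box above a level, as a weight. -/
def tBox (c : ℝ) (q : InfPts K) : ℝ≥0∞ :=
  (box K ∩ {q | c ≤ (q X.v).t}).indicator (fun q => ENNReal.ofReal (q X.v).t) q

lemma measurable_tBox (c : ℝ) : Measurable (tBox X c) :=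
  (H3.continuous_t.measurable.comp (measurable_pi_apply X.v)).ennreal_ofReal.indicator
    (measurableSet_box.inter (measurableSet_le measurable_const
      (H3.continuous_t.measurable.comp (measurable_pi_apply X.v))))

lemma lintegral_tBox {c : ℝ} (hc : 0 < c) :
    ∫⁻ q, tBox X c q ∂(Measure.pi fun _ : InfinitePlace K => H3.vol) < ⊤ := by
  let : Unique (InfinitePlace K) := ⟨⟨X.v⟩, fun w => X.uniq w⟩
  obtain ⟨B, hB⟩ := exists_box_bound K
  refine lt_of_le_of_lt (lintegral_mono fun q => ?_)
    (b := ∫⁻ q, {p : H3 | ‖p.z‖ ≤ B ∧ c ≤ p.t}.indicator (fun p => ENNReal.ofReal p.t)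
      ((MeasurableEquiv.funUnique (InfinitePlace K) H3) q)
        ∂(Measure.pi fun _ : InfinitePlace K => H3.vol)) ?_
  · show tBox X c q ≤ _
    unfold tBox
    by_cases hq : q ∈ box K ∩ {q | c ≤ (q X.v).t}
    · have hv : (MeasurableEquiv.funUnique (InfinitePlace K) H3) q = q X.v := rfl
      rw [Set.indicator_of_mem hq, hv, Set.indicator_of_mem]
      · exact ⟨hB q hq.1 _, hq.2⟩
    · rw [Set.indicator_of_notMem hq]
      exact zero_le
  · have hmp : MeasurePreserving (MeasurableEquiv.funUnique (InfinitePlace K) H3)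
        (Measure.pi fun _ : InfinitePlace K => H3.vol) H3.vol := by
      convert measurePreserving_funUnique H3.vol (InfinitePlace K)
    refine lt_of_eq_of_lt (hmp.lintegral_comp ?_) (H3.lintegral_t_lt_top B hc)
    exact H3.continuous_t.measurable.ennreal_ofReal.indicator
      ((isClosed_le H3.continuous_z.norm continuous_const).inter
        (isClosed_le continuous_const H3.continuous_t)).measurableSet

variable (k : InfKer)

section

omit [IsTotallyComplex K]

lemma exists_low_cube : ∃ c : ℝ, 0 < c ∧ c ≤ 1 ∧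
    ∀ p : InfPts K, cubeAt X k (nB 1) p ≠ 0 → c ≤ (p X.v).t := by
  refine ⟨min 1 (1 / (2 * max (k.comp (k.comp k)).ρ 1)), lt_min one_pos (by positivity),
    min_le_left _ _, fun p hp => ?_⟩
  obtain ⟨ht, hz⟩ := uB_smul_inf (1 : K) p X.v
  rw [map_one] at hz
  exact H3.le_t_of_coshDist hz ht ((k.comp (k.comp k)).supp _ _ hp)

lemma lamInf_K (p : InfPts K) : lamInf p = 2 * Real.log (p X.v).t := by
  let : Unique (InfinitePlace K) := ⟨⟨X.v⟩, fun w => X.uniq w⟩
  rw [lamInf, inf1, Fintype.sum_unique, Fintype.card_unique,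
    show (default : InfinitePlace K) = X.v from rfl]
  simp

lemma measurable_cubeAt (δ : G2 K) : Measurable (cubeAt X k δ) :=
  (k.comp (k.comp k)).meas.comp ((((measurable_pi_apply X.v).comp
    (measurable_const_smul δ)) : Measurable fun p : InfPts K => (δ • p) X.v).prodMk
      (measurable_pi_apply X.v))

end

/-- The factor at infinity below. -/
def profK : Prof K where
  g p := (boxInd K p : ℂ) * cubeAt X k (nB 1) p
  meas := (Complex.measurable_ofReal.comp measurable_boxInd).mul (measurable_cubeAt X k _)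
  m := 2 * Real.log (exists_low_cube X k).choose
  supp p hp := by
    obtain ⟨hc, -, h⟩ := (exists_low_cube X k).choose_spec
    rw [lamInf_K X]
    have := Real.log_le_log hc (h p (right_ne_zero_of_mul hp))
    linarith
  int := by
    obtain ⟨hc, -, h⟩ := (exists_low_cube X k).choose_spec
    set c := (exists_low_cube X k).choose
    refine ⟨(((Complex.measurable_ofReal.comp measurable_boxInd).mul
      (measurable_cubeAt X k _)).norm.mul
        (measurable_lamInf.div_const 2).exp).aestronglyMeasurable, ?_⟩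
    rw [HasFiniteIntegral]
    refine lt_of_le_of_lt (lintegral_mono fun p => ?_)
      (b := ∫⁻ q, ENNReal.ofReal (k.comp (k.comp k)).C * tBox X c q
        ∂(Measure.pi fun _ : InfinitePlace K => H3.vol)) ?_
    · show ‖‖(boxInd K p : ℂ) * cubeAt X k (nB 1) p‖ * Real.exp (lamInf p / 2)‖ₑ ≤ _
      by_cases hp : cubeAt X k (nB 1) p = 0
      · simp [hp]
      by_cases hb : p ∈ box K
      swap
      · rw [boxInd, Set.indicator_of_notMem hb]
        simp
      rw [tBox, Set.indicator_of_mem (show p ∈ box K ∩ {q | c ≤ (q X.v).t} from ⟨hb, h p hp⟩),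
        lamInf_K X, mul_div_cancel_left₀ _ (two_ne_zero' ℝ), Real.exp_log (p X.v).t_pos,
        ← ENNReal.ofReal_mul (k.comp (k.comp k)).C_nonneg,
        Real.enorm_eq_ofReal (mul_nonneg (norm_nonneg _) (p X.v).t_pos.le)]
      refine ENNReal.ofReal_le_ofReal (mul_le_mul_of_nonneg_right ?_ (p X.v).t_pos.le)
      rw [norm_mul, Complex.norm_real, Real.norm_eq_abs, abs_of_nonneg (boxInd_nonneg p)]
      exact (mul_le_of_le_one_left (norm_nonneg _) (boxInd_le_one p)).trans
        ((k.comp (k.comp k)).bound _ _)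
    · rw [lintegral_const_mul _ (measurable_tBox X c)]
      exact ENNReal.mul_lt_top ENNReal.ofReal_lt_top (lintegral_tBox X hc)

end Base

section Above

variable [IsTotallyComplex L] (k : InfKer)

lemma map_nB {F E : Type*} [Field F] [NumberField F] [Field E] [NumberField E]
    (f : F →+* E) (x : F) :
    g2Map f (nB x : G2 F) = nB (f x) := by
  rw [g2Map, nB, ProjGenLinGroup.map_mk]
  congr 1
  apply Units.ext
  ext i j
  fin_cases i <;> fin_cases j <;> simp

section

omit [IsTotallyComplex L]

lemma step_nB (β : L) (i : Fin 3) (q : H3) : (X.T.step i (nB β) q).t = q.t := by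
  show (ProjGenLinGroup.map (X.T.e i).embedding (nB β : G2 L) • X.T.tw i q).t = _
  have h := (uB_smul_inf β (fun _ => X.T.tw i q) (X.T.e i)).1
  rw [infPts_smul_apply] at h
  exact h.trans (twistPt_coord _ _ _).2

/-- The norm of the translation by a third. -/
lemma nrm_nB_third : X.T.nrm (nB ((3 : L)⁻¹)) = incl (nB (1 : K) : G2 K) := by
  have h3 : X.τ ((3 : L)⁻¹) = (3 : L)⁻¹ := by rw [map_inv₀, map_ofNat]
  rw [InfCycle.nrm, map_nB, RingHom.coe_coe, h3, map_nB, RingHom.coe_coe, h3, ← nB_add,
    ← nB_add, incl_nB, map_one,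
    show (3 : L)⁻¹ + 3⁻¹ + 3⁻¹ = 1 by ring]

lemma exists_low_tw : ∃ c R : ℝ, 0 < c ∧ 1 ≤ R ∧ ∀ p : InfPts L,
    twProd X k (nB (3 : L)⁻¹) p ≠ 0 →
      c ≤ (p (X.T.e 0)).t ∧ ∀ i, (p (X.T.e i)).t ≤ R * (p (X.T.e 0)).t ∧
        (p (X.T.e 0)).t ≤ R * (p (X.T.e i)).t := by
  set β : L := (3 : L)⁻¹
  set ρ := max k.ρ 0
  set ρ₂ := 1 + H3.nearC ρ * (H3.nearC ρ * 3)
  set ρ₃ := 1 + H3.nearC ρ₂ * (H3.nearC ρ * 3)
  set c := min 1 (1 / (2 * max ρ₃ 1))
  set Λ := max (2 * ρ + 2) 1
  have hΛ : 1 ≤ Λ := le_max_right _ _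
  refine ⟨c, Λ * Λ, lt_min one_pos (by positivity), one_le_mul_of_one_le_of_one_le hΛ hΛ,
    fun p hp => ?_⟩
  obtain ⟨h0, -, h2, hloop⟩ := near_of_twProd_ne_zero k hp
  replace h0 := h0.trans (le_max_left k.ρ 0)
  replace h2 := h2.trans (le_max_left k.ρ 0)
  rw [nrm_nB_third, incl_nB, map_one] at hloop
  set p0 := p (X.T.e 0)
  set p1 := p (X.T.e 1)
  set p2 := p (X.T.e 2)
  have hc : c ≤ p0.t := by
    obtain ⟨ht, hz⟩ := uB_smul_inf (1 : L) (fun _ => p0) (X.T.e 0)
    rw [infPts_smul_apply] at ht hz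
    rw [map_one] at hz
    exact H3.le_t_of_coshDist hz ht hloop
  obtain ⟨a1, a2, -⟩ := H3.coord_bounds_of_coshDist h0
  obtain ⟨b1, b2, -⟩ := H3.coord_bounds_of_coshDist h2
  rw [step_nB] at a1 a2 b1 b2
  have key : ∀ {u v : ℝ}, 0 ≤ v → u ≤ (2 * ρ + 2) * v → u ≤ Λ * Λ * v := fun hv h =>
    h.trans (mul_le_mul_of_nonneg_right ((le_max_left _ _).trans
      (le_mul_of_one_le_left (zero_le_one.trans hΛ) hΛ)) hv)
  have hp0 := p0.t_pos
  have hp1 := p1.t_pos
  have hp2 := p2.t_pos
  refine ⟨hc, fun i => ?_⟩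
  fin_cases i
  · exact ⟨le_mul_of_one_le_left hp0.le (one_le_mul_of_one_le_of_one_le hΛ hΛ),
      le_mul_of_one_le_left hp0.le (one_le_mul_of_one_le_of_one_le hΛ hΛ)⟩
  · exact ⟨key hp0.le a2, key hp1.le a1⟩
  · exact ⟨key hp0.le b1, key hp2.le b2⟩

lemma lamInf_L (p : InfPts L) : lamInf p = 2 / 3 * ∑ i, Real.log (p (X.T.e i)).t := by
  rw [lamInf, inf1, ← X.T.e.sum_comp, ← Fintype.card_congr X.T.e, Fintype.card_fin,
    Finset.sum_neg_distrib, ← Finset.mul_sum]
  push_cast
  ring

lemma measurable_twProd (γ : G2 L) : Measurable (twProd X k γ) := by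
  have hm : Measurable fun p : InfPts L => LevelHom.infMap (X.τ : L →+* L) p :=
    measurable_pi_lambda _ fun w =>
      (measurePreserving_twistPt _ _).measurable.comp (measurable_pi_apply _)
  unfold twProd
  exact Finset.measurable_prod _ fun w _ => k.meas.comp
    ((((measurable_pi_apply w).comp (measurable_const_smul γ)).comp hm).prodMk
      (measurable_pi_apply w))

end

variable [IsTotallyComplex K]

/-- The factor at infinity above. -/
def profL : Prof L where
  g p := (boxInd K (X.proj p) : ℂ) * twProd X k (nB (3 : L)⁻¹) p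
  meas := (Complex.measurable_ofReal.comp (measurable_boxInd.comp X.measurable_proj)).mul
    (measurable_twProd X k _)
  m := 2 * Real.log ((exists_low_tw X k).choose / (exists_low_tw X k).choose_spec.choose)
  supp p hp := by
    obtain ⟨hc, hR, h⟩ := (exists_low_tw X k).choose_spec.choose_spec
    obtain ⟨h0, hi⟩ := h p (right_ne_zero_of_mul hp)
    set c := (exists_low_tw X k).choose
    set R := (exists_low_tw X k).choose_spec.choose
    have hl : ∀ i, Real.log (c / R) ≤ Real.log (p (X.T.e i)).t := fun i =>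
      Real.log_le_log (by positivity) (by rw [div_le_iff₀' (by linarith)]; exact h0.trans (hi i).2)
    show 2 * Real.log (c / R) ≤ _
    rw [lamInf_L X, Fin.sum_univ_three]
    linarith [hl 0, hl 1, hl 2]
  int := by
    obtain ⟨hc, hR, h⟩ := (exists_low_tw X k).choose_spec.choose_spec
    set c := (exists_low_tw X k).choose
    set R := (exists_low_tw X k).choose_spec.choose
    refine ⟨(((Complex.measurable_ofReal.comp (measurable_boxInd.comp X.measurable_proj)).mul
      (measurable_twProd X k _)).norm.mul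
        (measurable_lamInf.div_const 2).exp).aestronglyMeasurable, ?_⟩
    rw [HasFiniteIntegral]
    refine lt_of_le_of_lt (lintegral_mono fun p => ?_)
      (b := ∫⁻ p : InfPts L, ENNReal.ofReal R * (tBox X c (X.proj p) *
        ‖∏ w, k.k ((nB ((3 : L)⁻¹) • (LevelHom.infMap (X.τ : L →+* L) p)) w) (p w)‖ₑ)
        ∂(Measure.pi fun _ : InfinitePlace L => H3.vol)) ?_
    · show ‖‖(boxInd K (X.proj p) : ℂ) * twProd X k (nB (3 : L)⁻¹) p‖ *
        Real.exp (lamInf p / 2)‖ₑ ≤ _
      by_cases hp : twProd X k (nB (3 : L)⁻¹) p = 0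
      · simp [hp]
      by_cases hb : X.proj p ∈ box K
      swap
      · rw [boxInd, Set.indicator_of_notMem hb]
        simp
      obtain ⟨h0, hi⟩ := h p hp
      have ht : (X.proj p X.v).t = (p (X.T.e 0)).t := (twistPt_coord _ _ _).2
      have hexp : Real.exp (lamInf p / 2) ≤ R * (p (X.T.e 0)).t := by
        rw [← Real.exp_log (mul_pos (zero_lt_one.trans_le hR) (p (X.T.e 0)).t_pos)]
        refine Real.exp_le_exp.mpr ?_
        rw [lamInf_L X, Fin.sum_univ_three]
        linarith [Real.log_le_log (p (X.T.e 0)).t_pos (hi 0).1,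
          Real.log_le_log (p (X.T.e 1)).t_pos (hi 1).1,
          Real.log_le_log (p (X.T.e 2)).t_pos (hi 2).1]
      rw [tBox, Set.indicator_of_mem (show X.proj p ∈ box K ∩ {q | c ≤ (q X.v).t} from
          ⟨hb, h0.trans_eq ht.symm⟩), ht, ← ofReal_norm (∏ w, _), ← mul_assoc,
        ← ENNReal.ofReal_mul (zero_le_one.trans hR),
        ← ENNReal.ofReal_mul (mul_nonneg (zero_le_one.trans hR) (p (X.T.e 0)).t_pos.le),
        Real.enorm_eq_ofReal (mul_nonneg (norm_nonneg _) (Real.exp_pos _).le),
        mul_comm (R * _)]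
      refine ENNReal.ofReal_le_ofReal (mul_le_mul ?_ hexp (Real.exp_pos _).le (norm_nonneg _))
      rw [norm_mul, Complex.norm_real, Real.norm_eq_abs, abs_of_nonneg (boxInd_nonneg _)]
      exact mul_le_of_le_one_left (norm_nonneg _) (boxInd_le_one _)
    · rw [lintegral_const_mul' _ _ ENNReal.ofReal_ne_top]
      refine ENNReal.mul_lt_top ENNReal.ofReal_lt_top ?_
      exact lt_of_le_of_lt (X.lintegral_inf_le _ k (measurable_tBox X c))
        (ENNReal.mul_lt_top (infConst_ne_top k).lt_top (lintegral_tBox X hc))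

end Above

end Uni

end FermatAgent.LT
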