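import Mathlib
import Fermat.Agent.LT.Descent.Hyp.Class
import Fermat.Agent.LT.Descent.Hyp.Diag
import Fermat.Agent.LT.Descent.Uni.Inf
import Fermat.Agent.LT.Descent.Uni.Heights

/-!
# Truncated integrals of glued translation classes

For a glued system of kernels whose lifts triple the logarithmic height, the truncated integrals
of the unit translation and of a third of it, unfolded against the partition weight, are finite
sums over weighted cosets below.  Along one coordinate the sum over the cosets of a height range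
is controlled by the sums along the fibres.
-/

set_option autoImplicit false

noncomputable section

open Matrix IsDedekindDomain NumberField Filter MeasureTheory
open scoped MatrixGroups ENNReal

namespace FermatAgent.LT

open Whit TwistCtx

namespace Ctx

variable {K : Type*} [Field K] [NumberField K]

/-- The translation by one is non-trivial. -/
lemma uB_one_ne_one : (ProjGenLinGroup.mk (uB (1 : K)) : G2 K) ≠ 1 := fun h => by
  obtain ⟨u, hu⟩ := isScal_of_mk_eq_one h
  have := congrArg (fun g : GL (Fin 2) K => g.val 0 1) hu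
  simp [sc, GeneralLinearGroup.coe_scalar] at this

lemma mem_torus_uB {g : G2 K} : g ∈ torus (uB (1 : K)) ↔ ∃ b : K, nB b = g := by
  constructor
  · intro hg
    obtain ⟨t, rfl⟩ := ProjGenLinGroup.mk_surjective g
    exact (mk_eq_nB_of_commute (mk_mem_torus_iff.mp hg)).imp fun _ hb => hb.symm
  · rintro ⟨b, rfl⟩
    refine mk_mem_torus_iff.mpr ?_
    show uB b * uB 1 = uB 1 * uB b
    rw [← uB_add, ← uB_add, add_comm]

lemma nB_injective {F : Type*} [Field F] [NumberField F] :
    Function.Injective (nB : F → G2 F) := fun a b h => by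
  obtain ⟨u, hu⟩ := Matrix.ProjGenLinGroup.mk_eq_mk_iff.mp h
  have e11 := congrArg (fun g : GL (Fin 2) F => g.val 1 1) hu
  have e01 := congrArg (fun g : GL (Fin 2) F => g.val 0 1) hu
  simp [GeneralLinearGroup.coe_scalar, Matrix.mul_apply, Fin.sum_univ_two] at e11 e01
  simpa [e11] using e01

end Ctx

namespace TwistCtx

variable {K L : Type*} [Field K] [NumberField K] [Field L] [NumberField L] [Algebra K L]
  [IsTotallyComplex K] [IsTotallyComplex L] [IsPrincipalIdealRing (𝓞 K)]

/-- The weight of the rational translations: the period box at infinity times the partition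
weights. -/
def uniWt (X : TwistCtx K L) : BaseWt X (torus (uB (1 : K))) where
  θ := Uni.theta
  meas := Uni.measurable_theta
  nonneg := Uni.theta_nonneg
  sum_eq := by
    have : Subsingleton (InfinitePlace K) := Hyp.subsingleton_place X
    refine ae_of_all _ fun y => ?_
    let e : K → torus (uB (1 : K)) := fun b => ⟨nB b, Ctx.mem_torus_uB.mpr ⟨b, rfl⟩⟩
    have he : Function.Bijective e := ⟨fun a b h => Ctx.nB_injective (congrArg Subtype.val h),
      fun h => (Ctx.mem_torus_uB.mp h.2).imp fun b hb => Subtype.ext hb⟩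
    rw [← (Equiv.ofBijective e he).hasSum_iff]
    exact Uni.hasSum_theta y

variable {X : TwistCtx K L} {B : X.Over}

/-- Gluing data of the translation by a third with the unit translation, with lifts tripling the
logarithmic height outside the exceptional places and bounds there for heights, errors and
absolute totals. -/
structure UniGlue (P : KerPair B) where
  /-- the gluing data -/
  G : Glue P (nB ((3 : L)⁻¹)) (nB (1 : K)) (torus (uB (1 : K)))
  congrK : X.UK.IsCongr
  loc_eq : ∀ v ∉ G.T, X.UK.loc v = locK v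
  lift_log : ∀ v ∉ G.T, ∀ z, famLog (G.lift v z) = 3 * Real.log (locM v e1 z)
  index_ne : G.subC.index ≠ 0
  index_eq : (X.subK (nB (1 : K)) (torus (uB (1 : K)))).index = G.subC.index
  /-- bounds for the heights at the exceptional places -/
  Cb : HeightOneSpectrum (𝓞 K) → ℝ
  low : ∀ v z, G.absTot v z ≠ 0 → locM v e1 z ≤ Cb v
  /-- a bound for the local errors -/
  D : HeightOneSpectrum (𝓞 K) → ℝ
  dev_le : ∀ v x z, P.loc v (ft B (nB ((3 : L)⁻¹) : G2 L) v x) x * (G.A v x z : ℂ) ≠ 0 →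
    |famLog x - 3 * Real.log (locM v e1 z)| ≤ D v
  /-- bounds for the absolute totals -/
  Bt : HeightOneSpectrum (𝓞 K) → ℝ
  Bt_nonneg : ∀ v, 0 ≤ Bt v
  absTot_le : ∀ v ∈ G.T, ∀ z, G.absTot v z ≤ Bt v

/-- The finite kernel below at the unit translation. -/
def KerPair.kapK (P : KerPair B) (z : FinCoset X.UK) : ℂ := P.down.kfin ((nB 1 : G2 K) • z) z

/-- The local functions below at the unit translation. -/
def KerPair.kap0 (P : KerPair B) (v : HeightOneSpectrum (𝓞 K)) (d : Pt X v) : ℂ :=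
  (P.kv v).k ((nB 1 : G2 K) • d) d

namespace UniGlue

variable {P : KerPair B} (UG : UniGlue P)

section

omit [IsTotallyComplex K] [IsTotallyComplex L] [IsPrincipalIdealRing (𝓞 K)]

/-- The glued finite kernel above. -/
def kapL (x : FinCoset X.UL) (z : FinCoset X.UK) : ℂ :=
  P.up.kfin (X.finTwist (nB ((3 : L)⁻¹)) x) x * (UG.G.W x z : ℂ)

/-- The supported cosets below. -/
def uSupp : Set (FinCoset X.UK) := Uni.supp UG.G.T UG.Cb

/-- The bound of the difference of the averaged heights above and below. -/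
def devC : ℝ := (∑ v ∈ UG.G.T, UG.D v) / 3

/-- The glued terms sum to the term below. -/
lemma hasSum_kapL (z : FinCoset X.UK) : HasSum (fun x => kapL UG x z) (P.kapK z) :=
  UG.G.hasSum_x z

/-- Finitely many glued terms are nonzero. -/
lemma finite_kapL (z : FinCoset X.UK) : {x | kapL UG x z ≠ 0}.Finite := UG.G.finite_x_global z

/-- What a nonzero glued term gives. -/
lemma kapL_spec {x : FinCoset X.UL} {z : FinCoset X.UK} (h : kapL UG x z ≠ 0) :
    (∀ v ∉ UG.G.T, (nB 1 : G2 K) • z.1 v = z.1 v ∧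
      Glue.resF x v = UG.G.lift v (z.1 v)) ∧
    ∀ v ∈ UG.G.T, P.loc v (ft B (nB ((3 : L)⁻¹) : G2 L) v (Glue.resF x v)) (Glue.resF x v) *
      (UG.G.A v (Glue.resF x v) (z.1 v) : ℂ) ≠ 0 := by
  classical
  have hW := right_ne_zero_of_mul h
  have hk := left_ne_zero_of_mul h
  rw [P.up_kfin UG.G.subset] at hk
  simp only [Glue.W] at hW
  split_ifs at hW with hc
  · split_ifs at hk with hf
    · refine ⟨fun v hv => ?_, fun v hv => mul_ne_zero ?_ ?_⟩
      · exact hc v hv
      · exact Finset.prod_ne_zero_iff.mp hk v hv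
      · rw [Complex.ofReal_ne_zero] at hW ⊢
        exact Finset.prod_ne_zero_iff.mp hW v hv
    · exact absurd rfl hk
  · simp at hW

/-- A glued sum is a finite sum. -/
lemma tsum_kapL_eq_sum (z : FinCoset X.UK) (f : FinCoset X.UL → ℂ) :
    ∑' x, kapL UG x z * f x = ∑ x ∈ (finite_kapL UG z).toFinset, kapL UG x z * f x :=
  tsum_eq_sum fun x hx => by
    rw [show kapL UG x z = 0 from
      by_contra fun hne => hx ((Set.Finite.mem_toFinset _).mpr hne), zero_mul]

lemma absTot_ne_of_kapL {x : FinCoset X.UL} {z : FinCoset X.UK} (h : kapL UG x z ≠ 0)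
    {v : HeightOneSpectrum (𝓞 K)} (hv : v ∈ UG.G.T) : UG.G.absTot v (z.1 v) ≠ 0 := by
  intro h0
  have hs : Summable fun x' : Fam B v =>
      ‖P.loc v (ft B (nB ((3 : L)⁻¹) : G2 L) v x') x' * (UG.G.A v x' (z.1 v) : ℂ)‖ :=
    summable_of_hasFiniteSupport ((UG.G.finite_x v hv (z.1 v)).subset fun x hx => by simpa using hx)
  have h0' := hs.hasSum
  rw [show ∑' x' : Fam B v, ‖P.loc v (ft B (nB ((3 : L)⁻¹) : G2 L) v x') x' *
    (UG.G.A v x' (z.1 v) : ℂ)‖ = 0 from h0] at h0'
  have := congrFun ((hasSum_zero_iff_of_nonneg fun x' => norm_nonneg _).mp h0') (Glue.resF x v)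
  exact (kapL_spec UG h).2 v hv (norm_eq_zero.mp this)

lemma exists_kapL_of_kapK {z : FinCoset X.UK} (h : P.kapK z ≠ 0) : ∃ x, kapL UG x z ≠ 0 := by
  by_contra hne
  push Not at hne
  exact h (((hasSum_kapL UG z).congr_fun fun x => (hne x).symm).unique hasSum_zero)

/-- Glued terms live over supported cosets. -/
lemma mem_uSupp_of_kapL {x : FinCoset X.UL} {z : FinCoset X.UK} (hΦ : Uni.Phi z ≠ 0)
    (h : kapL UG x z ≠ 0) : z ∈ uSupp UG :=
  ⟨hΦ, fun v hv => UG.low v _ (absTot_ne_of_kapL UG h hv), fun v hv => ((kapL_spec UG h).1 v hv).1⟩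

lemma mem_uSupp_of_kapK {z : FinCoset X.UK} (hΦ : Uni.Phi z ≠ 0) (h : P.kapK z ≠ 0) :
    z ∈ uSupp UG := by
  obtain ⟨x, hx⟩ := exists_kapL_of_kapK UG h
  exact mem_uSupp_of_kapL UG hΦ hx

/-- The averaged logarithmic height above differs from the one below by a sum of local errors at
the exceptional places. -/
theorem fh_sub_lh {x : FinCoset X.UL} {z : FinCoset X.UK} (h : kapL UG x z ≠ 0) :
    Uni.Prof.fh x - Uni.lh z =
      (∑ v ∈ UG.G.T,
        (famLog (B := B) (Glue.resF x v) - 3 * Real.log (locM v e1 (z.1 v)))) / 3 := by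
  classical
  set Sv := UG.G.T ∪ (Uni.finite_nonbase z).toFinset
  have hz : ∀ v ∉ Sv, z.1 v = QuotientGroup.mk 1 := fun v hv => by
    simpa [Sv] using (Finset.mem_union.not.mp hv |> not_or.mp).2
  have hx : ∀ w, w ∉ KerPair.above (B := B) Sv → x.1 w = QuotientGroup.mk 1 := fun w hw => by
    rw [KerPair.mem_above] at hw
    have e := congrFun (((kapL_spec UG h).1 _ fun hh => hw (Finset.mem_union_left _ hh)).2)
      ⟨w, rfl⟩
    rw [hz _ hw] at e
    exact e.trans (congrFun (UG.G.lift_base _ fun hh => hw (Finset.mem_union_left _ hh)) _)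
  have hlog : Hyp.finLog e1 x = ∑ v ∈ Sv, famLog (B := B) (Glue.resF x v) := by
    rw [Hyp.finLog, finprod_eq_prod_of_mulSupport_subset _ (s := KerPair.above (B := B) Sv)
      fun w hw => by_contra fun hn => hw (by
        show locM w e1 (x.1 w) = 1
        rw [hx w hn]
        exact locM_base (Or.inl rfl)), Real.log_prod fun w _ => (locM_pos w e1_ne_zero _).ne']
    unfold KerPair.above
    rw [Finset.sum_biUnion fun a _ b _ hab => Finset.disjoint_left.mpr fun w ha hb => hab (by
      rw [Set.Finite.mem_toFinset] at ha hb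
      exact ha.symm.trans hb)]
    refine Finset.sum_congr rfl fun v _ => ?_
    exact Finset.sum_subtype _ (fun w => by simp) fun w => Real.log (locM w e1 (x.1 w))
  have hrest : ∀ v ∈ Sv, v ∉ UG.G.T →
      famLog (B := B) (Glue.resF x v) - 3 * Real.log (locM v e1 (z.1 v)) = 0 := fun v _ hv => by
    rw [((kapL_spec UG h).1 v hv).2, UG.lift_log v hv, sub_self]
  rw [Uni.Prof.fh, hlog, Uni.lh_eq_sum z Sv hz, ← Fintype.card_congr X.T.e, Fintype.card_fin,
    Finset.sum_subset Finset.subset_union_left hrest, Finset.sum_sub_distrib, ← Finset.mul_sum]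
  push_cast
  ring

/-- Heights of glued cosets differ boundedly. -/
lemma abs_fh_sub_lh {x : FinCoset X.UL} {z : FinCoset X.UK} (h : kapL UG x z ≠ 0) :
    |Uni.Prof.fh x - Uni.lh z| ≤ devC UG := by
  rw [fh_sub_lh UG h, devC, abs_div, abs_of_pos (show (0 : ℝ) < 3 by norm_num)]
  refine div_le_div_of_nonneg_right ((Finset.abs_sum_le_sum_abs _ _).trans ?_) zero_le_three
  exact Finset.sum_le_sum fun v hv => UG.dev_le v _ _ ((kapL_spec UG h).2 v hv)

end

section

omit [IsTotallyComplex L]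

/-- The supported cosets of height at least a given one, a finite set. -/
def suppGe (s : ℝ) : Finset (FinCoset X.UK) :=
  haveI : Subsingleton (InfinitePlace K) := Hyp.subsingleton_place X
  (Uni.finite_supp_ge UG.congrK UG.loc_eq UG.Cb X.v s).toFinset

/-- Membership in the high supported cosets. -/
lemma mem_suppGe {s : ℝ} {z : FinCoset X.UK} :
    z ∈ suppGe UG s ↔ z ∈ uSupp UG ∧ s ≤ Uni.lh z := by
  simp [suppGe, uSupp]

omit [IsPrincipalIdealRing (𝓞 K)] [IsTotallyComplex K] in
/-- The logarithmic heights of the supported cosets are bounded above. -/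
theorem exists_lh_le : ∃ c : ℝ, ∀ z ∈ uSupp UG, Uni.lh z ≤ c := by
  classical
  refine ⟨∑ v ∈ UG.G.T, max 0 (Real.log (UG.Cb v)), fun z hz => ?_⟩
  obtain ⟨-, h1, h2⟩ := hz
  rw [Uni.lh_eq_sum z (UG.G.T ∪ (Uni.finite_nonbase z).toFinset) fun v hv => by
    simpa using (Finset.mem_union.not.mp hv |> not_or.mp).2,
    ← Finset.sum_sdiff (Finset.subset_union_left (s₁ := UG.G.T)
      (s₂ := (Uni.finite_nonbase z).toFinset))]
  refine le_trans (add_le_add (Finset.sum_nonpos fun v hv => ?_)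
    (Finset.sum_le_sum fun v hv => ?_)) (zero_add _).le
  · exact Real.log_nonpos (Uni.locM_pos_e1 _).le
      (Uni.locM_e1_le_one (congrArg _ (h2 v (Finset.mem_sdiff.mp hv).2)))
  · exact (Real.log_le_log (Uni.locM_pos_e1 _) (h1 v hv)).trans (le_max_right _ _)

/-- A lower bound, relative to the truncation, of the heights of cosets which contribute. -/
def uLow : ℝ := min (Uni.profK X P.k).m ((Uni.profL X P.k).m - devC UG)

/-- Glued sums vanish off the high cosets. -/
lemma tsum_kapL_eq_zero {fL : ℝ → ℂ} (hfL : ∀ a, 0 < a + (Uni.profL X P.k).m → fL a = 0)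
    {s : ℝ} {z : FinCoset X.UK} (hz : z ∉ suppGe UG (s + uLow UG)) (hΦ : Uni.Phi z ≠ 0) :
    ∑' x, kapL UG x z * fL (s - Uni.Prof.fh x) = 0 := by
  refine (tsum_congr fun x => ?_).trans tsum_zero
  by_cases hx : kapL UG x z = 0
  · rw [hx, zero_mul]
  have h1 := mem_uSupp_of_kapL UG hΦ hx
  have h2 : Uni.lh z < s + uLow UG := not_le.mp fun hle => hz ((mem_suppGe UG).mpr ⟨h1, hle⟩)
  have h3 := abs_le.mp (abs_fh_sub_lh UG hx)
  have h4 := min_le_right (Uni.profK X P.k).m ((Uni.profL X P.k).m - devC UG)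
  rw [hfL _ (by unfold uLow at h2; linarith), mul_zero]

/-- Terms below vanish off the high cosets. -/
lemma kapK_mul_eq_zero {fK : ℝ → ℂ} (hfK : ∀ a, 0 < a + (Uni.profK X P.k).m → fK a = 0)
    {s : ℝ} {z : FinCoset X.UK} (hz : z ∉ suppGe UG (s + uLow UG)) (hΦ : Uni.Phi z ≠ 0) :
    P.kapK z * fK (s - Uni.lh z) = 0 := by
  by_cases hx : P.kapK z = 0
  · rw [hx, zero_mul]
  have h1 := mem_uSupp_of_kapK UG hΦ hx
  have h2 : Uni.lh z < s + uLow UG := not_le.mp fun hle => hz ((mem_suppGe UG).mpr ⟨h1, hle⟩)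
  have h4 := min_le_left (Uni.profK X P.k).m ((Uni.profL X P.k).m - devC UG)
  rw [hfK _ (by unfold uLow at h2; linarith), mul_zero]

end

section Unfold

variable {sL : Set (Space X.UL)} (hsL : IsFundamentalDomain (G2 L) sL (Space.vol X.UL))
  {sK : Set (Space X.UK)} (hsK : IsFundamentalDomain (G2 K) sK (Space.vol X.UK))

omit [IsTotallyComplex L] in
include UG hsK in
/-- **The unipotent class below**: its truncated sum is integrable and, for `s` small enough,
integrates to the finite sum over cosets of the weight times the finite kernel times the mass at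
infinity cut at `s` minus the height, over the index. -/
theorem uni_integral_K (s : ℝ) :
    Integrable (fun x => X.σK.sumOn P.down.toPtKer (X.σK.cls (nB (1 : K))) x *
        (Space.trunc (Real.exp (1 * s)) x : ℂ)) ((Space.vol X.UK).restrict sK) ∧
    ∀ Z : Finset (FinCoset X.UK), suppGe UG (s + uLow UG) ⊆ Z →
      (∀ z ∈ uSupp UG, s + Uni.lh z ≤ (Uni.profK X P.k).m) →
      (UG.G.subC.index : ℂ) * ∫ x in sK, X.σK.sumOn P.down.toPtKer (X.σK.cls (nB (1 : K))) x *
          (Space.trunc (Real.exp (1 * s)) x : ℂ) ∂Space.vol X.UK =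
        ∑ z ∈ Z, (Uni.Phi z : ℂ) * (P.kapK z * (Uni.profK X P.k).low (s - Uni.lh z)) := by
  classical
  have : Unique (InfinitePlace K) := ⟨⟨X.v⟩, fun w => X.uniq w⟩
  have : (X.subK (nB (1 : K)) (torus (uB (1 : K)))).FiniteIndex := ⟨UG.index_eq ▸ UG.index_ne⟩
  set P₀ := Uni.profK X P.k
  set W := TwistCtx.wtK P (δ := nB (1 : K)) UG.G.mem_plain (uniWt X)
  have hn : ((Fintype.card (InfinitePlace K) : ℕ) : ℝ) = 1 := by simp
  have hfh : ∀ z : FinCoset X.UK, Uni.Prof.fh z = Uni.lh z := fun z => by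
    rw [Uni.Prof.fh, hn, div_one]
  let φ : FinCoset X.UK → InfPts K → ℂ := fun z p =>
    (Uni.Phi z : ℂ) * P.kapK z *
      (P₀.g p * (Space.trunc (Real.exp (1 * s)) ((p, z) : Space X.UK) : ℂ))
  have hφ : ∀ z, Integrable (φ z) (Measure.pi fun _ => H3.vol) := fun z => by
    have h := (P₀.integrable_trunc s z).const_mul ((Uni.Phi z : ℂ) * P.kapK z)
    rw [hn] at h
    exact h
  have hpt : ∀ (Z : Finset (FinCoset X.UK)), suppGe UG (s + uLow UG) ⊆ Z →
      ∀ y : Space X.UK, X.σK.term P.down.toPtKer (nB (1 : K)) y * (W.Θ y : ℂ) *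
        (Space.trunc (Real.exp (1 * s)) y : ℂ) = ∑ z ∈ Z, if y.2 = z then φ z y.1 else 0 := by
    rintro Z hZ ⟨p, z⟩
    have hinf : P.down.kinf ((nB 1 : G2 K) • p) p = Hyp.cubeAt X P.k (nB 1) p := P.down_kinf _ _
    have e : X.σK.term P.down.toPtKer (nB (1 : K)) (p, z) * (W.Θ (p, z) : ℂ) *
        (Space.trunc (Real.exp (1 * s)) ((p, z) : Space X.UK) : ℂ) = φ z p := by
      show P.down.kinf ((nB 1 : G2 K) • p) p * P.kapK z *
        ((Uni.boxInd K p * Uni.Phi z : ℝ) : ℂ) * _ = _
      rw [hinf]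
      simp only [φ, P₀, Uni.profK]
      push_cast
      ring
    rw [Finset.sum_ite_eq, e]
    split_ifs with hz
    · rfl
    simp only [φ]
    by_cases hΦ : Uni.Phi z = 0
    · simp [hΦ]
    by_cases hk : P.kapK z = 0
    · simp [hk]
    by_cases hg : P₀.g p = 0
    · simp [hg]
    have h1 := mem_uSupp_of_kapK UG hΦ hk
    have h2 : Uni.lh z < s + uLow UG :=
      not_le.mp fun hle => hz (hZ ((mem_suppGe UG).mpr ⟨h1, hle⟩))
    have h3 := P₀.supp p hg
    have h4 : uLow UG ≤ P₀.m := min_le_left _ _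
    have ht := Uni.Prof.trunc_le (U := X.UK) s p z (by rw [hfh]; intro hle; linarith)
    rw [hn] at ht
    rw [ht, Complex.ofReal_zero, mul_zero, mul_zero]
  have hint : Integrable (fun y => X.σK.term P.down.toPtKer (nB (1 : K)) y * (W.Θ y : ℂ) *
      (Space.trunc (Real.exp (1 * s)) y : ℂ)) (Space.vol X.UK) :=
    (Uni.integral_slices (U := X.UK) (suppGe UG (s + uLow UG)) id φ fun z _ => hφ z).1.congr
      (ae_of_all _ fun y => (hpt _ subset_rfl y).symm)
  refine ⟨W.integrable_cls (Space.measurable_trunc _) (Space.trunc_nonneg _) (Space.trunc_smul _)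
    hint hsK, fun Z hZ hsm => ?_⟩
  have h1 := W.integral_cls (Space.measurable_trunc _) (Space.trunc_smul _) hint hsK
  rw [show (W.m : ℂ) = (UG.G.subC.index : ℂ) from congrArg Nat.cast UG.index_eq] at h1
  rw [h1, integral_congr_ae (ae_of_all _ (hpt Z hZ))]
  refine ((Uni.integral_slices (U := X.UK) Z id φ fun z _ => hφ z).2).trans ?_
  refine Finset.sum_congr rfl fun z _ => ?_
  simp only [φ, integral_const_mul, mul_assoc]
  by_cases hΦ : Uni.Phi z = 0
  · simp [hΦ]
  by_cases hk : P.kapK z = 0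
  · simp [hk]
  have hs' : s + Uni.Prof.fh z ≤ P₀.m := by
    rw [hfh]; exact hsm z (mem_uSupp_of_kapK UG hΦ hk)
  congr 2
  refine integral_congr_ae (ae_of_all _ fun p => ?_)
  have h := P₀.trunc_eq s p z hs'
  rw [hn, hfh] at h
  exact h

include UG hsL in
/-- **The unipotent class above**: its sum truncated at the cube of the parameter is integrable
and, for `s` small enough, integrates to the sum over cosets below of the weight times the glued
kernel against the mass at infinity cut at `s` minus the height above, over the index. -/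
theorem uni_integral_L (s : ℝ) :
    Integrable (fun x => X.σ.sumOn P.up.toPtKer (X.σ.cls (nB ((3 : L)⁻¹))) x *
        (Space.trunc (Real.exp (3 * s)) x : ℂ)) ((Space.vol X.UL).restrict sL) ∧
    ∀ Z : Finset (FinCoset X.UK), suppGe UG (s + uLow UG) ⊆ Z →
      (∀ x, ∀ z, Uni.Phi z ≠ 0 → kapL UG x z ≠ 0 →
        s + Uni.Prof.fh x ≤ (Uni.profL X P.k).m) →
      (UG.G.subC.index : ℂ) * ∫ x in sL, X.σ.sumOn P.up.toPtKer
          (X.σ.cls (nB ((3 : L)⁻¹))) x * (Space.trunc (Real.exp (3 * s)) x : ℂ) ∂Space.vol X.UL =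
        ∑ z ∈ Z, (Uni.Phi z : ℂ) *
          ∑' x, kapL UG x z * (Uni.profL X P.k).low (s - Uni.Prof.fh x) := by
  classical
  have : UG.G.subC.FiniteIndex := ⟨UG.index_ne⟩
  set P₀ := Uni.profL X P.k
  set W := UG.G.wt (uniWt X)
  have hn : ((Fintype.card (InfinitePlace L) : ℕ) : ℝ) = 3 := by
    rw [← Fintype.card_congr X.T.e]
    simp
  let φ : FinCoset X.UK × FinCoset X.UL → InfPts L → ℂ := fun i p =>
    (Uni.Phi i.1 : ℂ) * kapL UG i.2 i.1 *
      (P₀.g p * (Space.trunc (Real.exp (3 * s)) ((p, i.2) : Space X.UL) : ℂ))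
  have hφ : ∀ i, Integrable (φ i) (Measure.pi fun _ => H3.vol) := fun i => by
    have h := (P₀.integrable_trunc s i.2).const_mul ((Uni.Phi i.1 : ℂ) * kapL UG i.2 i.1)
    rw [hn] at h
    exact h
  let pairs : Finset (FinCoset X.UK) → Finset (FinCoset X.UK × FinCoset X.UL) :=
    fun Z => Z ×ˢ Z.biUnion fun z => (finite_kapL UG z).toFinset
  have hzero : ∀ (p : InfPts L) (z : FinCoset X.UK) (x : FinCoset X.UL),
      z ∉ suppGe UG (s + uLow UG) → φ (z, x) p = 0 := by
    intro p z x hz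
    simp only [φ]
    by_cases hΦ : Uni.Phi z = 0
    · simp [hΦ]
    by_cases hk : kapL UG x z = 0
    · simp [hk]
    by_cases hg : P₀.g p = 0
    · simp [hg]
    have h1 := mem_uSupp_of_kapL UG hΦ hk
    have h2 : Uni.lh z < s + uLow UG := not_le.mp fun hle => hz ((mem_suppGe UG).mpr ⟨h1, hle⟩)
    have h3 := P₀.supp p hg
    have h4 : uLow UG ≤ P₀.m - devC UG := min_le_right _ _
    have h5 := abs_le.mp (abs_fh_sub_lh UG hk)
    have ht := Uni.Prof.trunc_le (U := X.UL) s p x (by intro hle; linarith)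
    rw [hn] at ht
    rw [ht, Complex.ofReal_zero, mul_zero, mul_zero]
  have hpt : ∀ (Z : Finset (FinCoset X.UK)), suppGe UG (s + uLow UG) ⊆ Z →
      ∀ y : Space X.UL, X.σ.term P.up.toPtKer (nB ((3 : L)⁻¹)) y * (W.Θ y : ℂ) *
        (Space.trunc (Real.exp (3 * s)) y : ℂ) =
          ∑ i ∈ pairs Z, if y.2 = i.2 then φ i y.1 else 0 := by
    rintro Z hZ ⟨p, x⟩
    have e : X.σ.term P.up.toPtKer (nB ((3 : L)⁻¹)) (p, x) * (W.Θ (p, x) : ℂ) *
        (Space.trunc (Real.exp (3 * s)) ((p, x) : Space X.UL) : ℂ) = ∑' z, φ (z, x) p := by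
      have hΘ : W.Θ (p, x) = ∑' z, UG.G.W x z * (Uni.boxInd K (X.proj p) * Uni.Phi z) := by
        show (UG.G.lifte Uni.theta (p, x)).toReal = _
        rw [Glue.lifte, ENNReal.tsum_toReal_eq fun z => ENNReal.ofReal_ne_top]
        exact tsum_congr fun z =>
          ENNReal.toReal_ofReal (mul_nonneg (UG.G.W_nonneg _ _) (Uni.theta_nonneg _))
      show Hyp.twProd X P.k (nB ((3 : L)⁻¹)) p *
        P.up.kfin (X.finTwist (nB ((3 : L)⁻¹)) x) x * (W.Θ (p, x) : ℂ) * _ = _
      rw [hΘ, Complex.ofReal_tsum, ← tsum_mul_left, ← tsum_mul_right]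
      refine tsum_congr fun z => ?_
      simp only [φ, P₀, Uni.profL, kapL]
      push_cast
      ring
    rw [e, tsum_eq_sum (s := Z) fun z hz => hzero p z x fun h => hz (hZ h), Finset.sum_product]
    refine Finset.sum_congr rfl fun z hz => ?_
    rw [Finset.sum_ite_eq]
    split_ifs with hx
    · rfl
    · have hk : kapL UG x z = 0 := by
        by_contra hne
        exact hx (Finset.mem_biUnion.mpr ⟨z, hz, (Set.Finite.mem_toFinset _).mpr hne⟩)
      simp [φ, hk]
  have hint : Integrable (fun y => X.σ.term P.up.toPtKer (nB ((3 : L)⁻¹)) y * (W.Θ y : ℂ) *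
      (Space.trunc (Real.exp (3 * s)) y : ℂ)) (Space.vol X.UL) :=
    (Uni.integral_slices (U := X.UL) (pairs (suppGe UG (s + uLow UG))) Prod.snd φ
      fun i _ => hφ i).1.congr (ae_of_all _ fun y => (hpt _ subset_rfl y).symm)
  refine ⟨W.integrable_cls (Space.measurable_trunc _) (Space.trunc_nonneg _) (Space.trunc_smul _)
    hint hsL, fun Z hZ hsm => ?_⟩
  have h1 := W.integral_cls (Space.measurable_trunc _) (Space.trunc_smul _) hint hsL
  rw [show (W.m : ℂ) = (UG.G.subC.index : ℂ) from rfl] at h1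
  rw [h1, integral_congr_ae (ae_of_all _ (hpt Z hZ)),
    (Uni.integral_slices (U := X.UL) (pairs Z) Prod.snd φ fun i _ => hφ i).2,
    Finset.sum_product]
  refine Finset.sum_congr rfl fun z hz => ?_
  rw [tsum_eq_sum (s := Z.biUnion fun z => (finite_kapL UG z).toFinset) fun x hx => by
    rw [show kapL UG x z = 0 from by_contra fun hne =>
      hx (Finset.mem_biUnion.mpr ⟨z, hz, (Set.Finite.mem_toFinset _).mpr hne⟩), zero_mul],
    Finset.mul_sum]
  refine Finset.sum_congr rfl fun x _ => ?_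
  simp only [φ, integral_const_mul, mul_assoc]
  by_cases hΦ : Uni.Phi z = 0
  · simp [hΦ]
  by_cases hk : kapL UG x z = 0
  · simp [hk]
  congr 2
  refine integral_congr_ae (ae_of_all _ fun p => ?_)
  have h := P₀.trunc_eq s p x (hsm x z hΦ hk)
  rw [hn] at h
  exact h

end Unfold

section Fibre

variable {v₀ : HeightOneSpectrum (𝓞 K)}

section

omit [IsTotallyComplex K] [IsTotallyComplex L] [IsPrincipalIdealRing (𝓞 K)]

include UG in
/-- The term below as a product kernel. -/
lemma kapK_eq_KK (z : FinCoset X.UK) :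
    P.kapK z = Hyp.KK (nB (1 : K)) UG.G.T P.kap0 z := by
  classical
  rw [KerPair.kapK, P.down_kfin UG.G.subset]
  rfl

/-- The bound of the absolute sums. -/
def absC : ℝ := ∏ v ∈ UG.G.T, UG.Bt v

/-- The absolute bound is nonnegative. -/
lemma absC_nonneg : 0 ≤ absC UG := Finset.prod_nonneg fun v _ => UG.Bt_nonneg v

/-- The absolute sums are bounded. -/
lemma absSum_le (z : FinCoset X.UK) : UG.G.absSum z ≤ absC UG := by
  unfold Glue.absSum
  split_ifs
  · exact Finset.prod_le_prod (fun v _ => tsum_nonneg fun _ => norm_nonneg _)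
      fun v hv => UG.absTot_le v hv _
  · exact absC_nonneg UG

/-- The term below is bounded by the absolute sum. -/
lemma norm_kapK_le (z : FinCoset X.UK) : ‖P.kapK z‖ ≤ UG.G.absSum z := by
  rw [← (hasSum_kapL UG z).tsum_eq, ← (UG.G.hasSum_abs z).tsum_eq]
  exact norm_tsum_le_tsum_norm (UG.G.hasSum_abs z).summable

open Classical in
include UG in
/-- The product kernel after updating one place. -/
lemma KK_updC (hv : v₀ ∈ UG.G.T) (κ : ∀ v, Pt X v → ℂ) (z : FinCoset X.UK) (d : Pt X v₀) :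
    Hyp.KK (nB (1 : K)) UG.G.T κ (updC z v₀ d) = κ v₀ d *
      (if ∀ v ∉ UG.G.T, (nB 1 : G2 K) • z.1 v = z.1 v then
        ∏ v ∈ UG.G.T.erase v₀, κ v (z.1 v) else 0) := by
  have hfix : (∀ v ∉ UG.G.T, (nB 1 : G2 K) • (updC z v₀ d).1 v = (updC z v₀ d).1 v) ↔
      ∀ v ∉ UG.G.T, (nB 1 : G2 K) • z.1 v = z.1 v :=
    forall_congr' fun v => forall_congr' fun h => by
      rw [updC_ne z d fun e : v = v₀ => h (e ▸ hv)]
  unfold Hyp.KK
  by_cases h : ∀ v ∉ UG.G.T, (nB 1 : G2 K) • z.1 v = z.1 v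
  · rw [if_pos (hfix.mpr h), if_pos h, ← Finset.mul_prod_erase _ _ hv, updC_self]
    refine congrArg _ (Finset.prod_congr rfl fun v hv' => ?_)
    rw [updC_ne z d (Finset.ne_of_mem_erase hv')]
  · rw [if_neg fun hh => h (hfix.mp hh), if_neg h, mul_zero]

open Classical in
include UG in
/-- Along a coordinate without error the weighted height errors are the local function below
times a constant. -/
theorem exists_dev_updC (hv : v₀ ∈ UG.G.T)
    (hbase : ∀ x z, P.loc v₀ (ft B (nB ((3 : L)⁻¹) : G2 L) v₀ x) x * (UG.G.A v₀ x z : ℂ) ≠ 0 →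
      famLog x = 3 * Real.log (locM v₀ e1 z))
    (z : FinCoset X.UK) :
    ∃ b : ℂ, ∀ d, ∑' x, kapL UG x (updC z v₀ d) *
      ((Uni.Prof.fh x - Uni.lh (updC z v₀ d) : ℝ) : ℂ) = P.kap0 v₀ d * b := by
  let rest : (∀ v, Pt X v → ℂ) → ℂ := fun κ =>
    if ∀ v ∉ UG.G.T, (nB 1 : G2 K) • z.1 v = z.1 v then
      ∏ v ∈ UG.G.T.erase v₀, κ v (z.1 v) else 0
  let φ : ∀ v, Fam B v → ℂ := fun v x =>
    ((famLog x - 3 * Real.log (locM v e1 (z.1 v)) : ℝ) : ℂ)
  refine ⟨(∑ v ∈ UG.G.T.erase v₀,
      rest (Function.update P.kap0 v (UG.G.psi v (φ v)))) / 3, fun d => ?_⟩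
  set z₁ := updC z v₀ d
  have hpt : ∀ x, kapL UG x z₁ * ((Uni.Prof.fh x - Uni.lh z₁ : ℝ) : ℂ) =
      (∑ v ∈ UG.G.T.erase v₀, kapL UG x z₁ * φ v (Glue.resF x v)) / 3 := by
    intro x
    by_cases hx : kapL UG x z₁ = 0
    · simp [hx]
    rw [fh_sub_lh UG hx, ← Finset.add_sum_erase _ _ hv,
      hbase _ _ ((kapL_spec UG hx).2 _ hv), sub_self, zero_add,
      ← Finset.mul_sum, mul_div_assoc, Complex.ofReal_div, Complex.ofReal_sum]
    push_cast
    refine congrArg (kapL UG x z₁ * ·) (congrArg (· / 3) (Finset.sum_congr rfl fun v hv => ?_))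
    simp only [φ, z₁]
    rw [updC_ne z d (Finset.ne_of_mem_erase hv)]
    push_cast
    rfl
  rw [tsum_congr hpt, tsum_div_const, Summable.tsum_finsetSum fun v _ =>
    summable_of_hasFiniteSupport ((finite_kapL UG z₁).subset fun x hx => left_ne_zero_of_mul hx),
    mul_div_assoc', Finset.mul_sum]
  refine congrArg (· / 3) (Finset.sum_congr rfl fun v hv' => ?_)
  refine (UG.G.tsum_x_mul (Finset.mem_of_mem_erase hv') (φ v) z₁).trans ?_
  rw [KK_updC UG hv, Function.update_of_ne (Finset.ne_of_mem_erase hv').symm]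
  rfl

/-- Weight and height after updating one trivial place. -/
lemma Phi_updC (z : FinCoset X.UK) (hz : z.1 v₀ = QuotientGroup.mk 1) (d : Pt X v₀) :
    Uni.Phi (updC z v₀ d) = Uni.Phi z * Uni.pw d ∧
      Uni.lh (updC z v₀ d) = Uni.lh z + Real.log (locM v₀ e1 d) := by
  classical
  set Sv := insert v₀ (Uni.finite_nonbase z).toFinset
  have hz' : ∀ v ∉ Sv, z.1 v = QuotientGroup.mk 1 := fun v hv => by
    simpa [Sv] using (Finset.mem_insert.not.mp hv |> not_or.mp).2
  have hu : ∀ v ∉ Sv, (updC z v₀ d).1 v = QuotientGroup.mk 1 := fun v hv => by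
    rw [updC_ne z d fun h : v = v₀ => hv (h ▸ Finset.mem_insert_self _ _)]
    exact hz' v hv
  have hm : v₀ ∈ Sv := Finset.mem_insert_self _ _
  constructor
  · rw [Uni.Phi_eq_prod _ Sv hu, Uni.Phi_eq_prod _ Sv hz', ← Finset.mul_prod_erase _ _ hm,
      ← Finset.mul_prod_erase _ _ hm, updC_self, hz, Uni.pw_base, one_mul, mul_comm]
    refine congrArg (· * _) (Finset.prod_congr rfl fun v hv => ?_)
    rw [updC_ne z d (Finset.ne_of_mem_erase hv)]
  · rw [Uni.lh_eq_sum _ Sv hu, Uni.lh_eq_sum _ Sv hz', ← Finset.add_sum_erase _ _ hm,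
      ← Finset.add_sum_erase _ _ hm, updC_self, hz, locM_base (Or.inl rfl), Real.log_one, zero_add,
      add_comm]
    refine congrArg (· + _) (Finset.sum_congr rfl fun v hv => ?_)
    rw [updC_ne z d (Finset.ne_of_mem_erase hv)]

end

omit [IsTotallyComplex L] in
include UG in
/-- If along one coordinate the sums over the fibres are at most `M` times the square root of
`exp (s + height)`, the sums over the cosets of the height range are bounded uniformly in `s`. -/
theorem exists_sum_le_of_fibre (hv : v₀ ∈ UG.G.T) (hCb : 1 ≤ UG.Cb v₀) {M : ℝ} (hM : 0 ≤ M)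
    {f : ℝ → FinCoset X.UK → ℂ}
    (hzero : ∀ s z, z ∉ suppGe UG (s + uLow UG) → f s z = 0)
    (hfib : ∀ s z, z.1 v₀ = QuotientGroup.mk 1 →
      ‖∑' d, f s (updC z v₀ d)‖ ≤ M * Real.exp (s / 2) * Real.exp (Uni.lh z / 2)) :
    ∃ M' : ℝ, 0 ≤ M' ∧ ∀ (s : ℝ) (Z : Finset (FinCoset X.UK)),
      suppGe UG (s + uLow UG) ⊆ Z → ‖∑ z ∈ Z, f s z‖ ≤ M' := by
  classical
  have : Subsingleton (InfinitePlace K) := Hyp.subsingleton_place X
  obtain ⟨C₁, hC₁, hsum⟩ := Uni.exists_sum_exp_le UG.congrK UG.loc_eq UG.Cb X.v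
  set c₀ := uLow UG - Real.log (UG.Cb v₀)
  refine ⟨M * C₁ * Real.exp (-c₀ / 2), by positivity, fun s Z hsub => ?_⟩
  rw [← Finset.sum_subset hsub fun z _ hz => hzero s z hz]
  set Z' := suppGe UG (s + uLow UG)
  set key : FinCoset X.UK → FinCoset X.UK := fun z => updC z v₀ (QuotientGroup.mk 1)
  have hback : ∀ z, updC (key z) v₀ (z.1 v₀) = z := fun z => by
    rw [updC_updC, updC_eq_self]
  have hfibsum : ∀ z' ∈ Z'.image key, ∑ z ∈ Z' with key z = z', f s z =
      ∑' d, f s (updC z' v₀ d) := by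
    intro z' hz'
    obtain ⟨z₀, -, rfl⟩ := Finset.mem_image.mp hz'
    rw [tsum_eq_sum (s := (Z'.filter fun z => key z = key z₀).image fun z => z.1 v₀) fun d hd =>
      hzero s _ fun hmem => hd (Finset.mem_image.mpr ⟨_, Finset.mem_filter.mpr
        ⟨hmem, by simp only [key, updC_updC]⟩, updC_self _ _⟩)]
    rw [Finset.sum_image fun a ha b hb e => by
      rw [← hback a, ← hback b, (Finset.mem_filter.mp ha).2, (Finset.mem_filter.mp hb).2]
      exact congrArg (updC (key z₀) v₀) e]
    exact Finset.sum_congr rfl fun z hz => by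
      rw [← (Finset.mem_filter.mp hz).2, hback]
  have hmem : ∀ z' ∈ Z'.image key, z' ∈ uSupp UG ∧ s + c₀ ≤ Uni.lh z' := by
    intro z' hz'
    obtain ⟨z, hz, rfl⟩ := Finset.mem_image.mp hz'
    obtain ⟨⟨hΦ, h1, h2⟩, hle⟩ := (mem_suppGe UG).mp hz
    have hb : (key z).1 v₀ = QuotientGroup.mk 1 := updC_self _ _
    obtain ⟨e1', e2'⟩ := Phi_updC (key z) hb (z.1 v₀)
    rw [hback] at e1' e2'
    refine ⟨⟨fun h => hΦ (by rw [e1', h, zero_mul]), fun v hv' => ?_, fun v hv' => ?_⟩, ?_⟩
    · by_cases hv0 : v = v₀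
      · subst hv0
        rw [hb, locM_base (Or.inl rfl)]
        exact hCb
      · simp only [key]
        rw [updC_ne _ _ hv0]
        exact h1 v hv'
    · simp only [key]
      rw [updC_ne _ _ fun h : v = v₀ => hv' (h ▸ hv)]
      exact h2 v hv'
    · have h3 := Real.log_le_log (Uni.locM_pos_e1 (z.1 v₀)) (h1 v₀ hv)
      simp only [c₀]
      linarith
  rw [← Finset.sum_fiberwise_of_maps_to (g := key) (t := Z'.image key)
    fun z hz => Finset.mem_image_of_mem key hz, Finset.sum_congr rfl hfibsum]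
  calc ‖∑ z' ∈ Z'.image key, ∑' d, f s (updC z' v₀ d)‖
      ≤ ∑ z' ∈ Z'.image key, M * Real.exp (s / 2) * Real.exp (Uni.lh z' / 2) := by
        refine (norm_sum_le _ _).trans (Finset.sum_le_sum fun z' hz' => ?_)
        obtain ⟨z, -, rfl⟩ := Finset.mem_image.mp hz'
        exact hfib s _ (updC_self _ _)
    _ = M * Real.exp (s / 2) * ∑ z' ∈ Z'.image key, Real.exp (Uni.lh z' / 2) :=
        (Finset.mul_sum _ _ _).symm
    _ ≤ M * Real.exp (s / 2) * (C₁ * Real.exp (-(s + c₀) / 2)) :=
        mul_le_mul_of_nonneg_left (hsum _ _ hmem) (by positivity)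
    _ = _ := by
        rw [show -(s + c₀) / 2 = -(s / 2) + -c₀ / 2 by ring, Real.exp_add, Real.exp_neg]
        field_simp

end Fibre

end UniGlue

end TwistCtx

end FermatAgent.LT
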