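import Mathlib
import Fermat.Agent.LT.Descent.Uni.Trunc

/-!
# The classes of nontrivial unipotent elements

Above and below the nontrivial unipotent elements form one class each.  A function whose
integrals over long intervals stay bounded has no limit at minus infinity other than zero.
-/

set_option autoImplicit false

noncomputable section

open Matrix IsDedekindDomain NumberField Filter MeasureTheory
open scoped MatrixGroups Topology

namespace FermatAgent.LT.Ctx

open Whit TwistCtx

/-- The nontrivial unipotent elements of `PGL₂(K)`. -/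
def uniK (K : Type*) [Field K] [NumberField K] : Set (G2 K) := {g | IsUnip g ∧ g ≠ 1}

variable {K L : Type*} [Field K] [NumberField K] [Field L] [NumberField L] [Algebra K L]

lemma isUnip_nB (x : K) : IsUnip (nB x : G2 K) := by
  rw [isUnip_mk]
  simp [Matrix.trace_fin_two, Matrix.det_fin_two]
  norm_num

/-- A nontrivial unipotent element is conjugate over the field to the unit translation. -/
theorem exists_conj_nB {g : G2 K} (hg : g ∈ uniK K) : ∃ a : G2 K, a * nB 1 * a⁻¹ = g := by
  obtain ⟨hu, hne⟩ := hg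
  obtain ⟨h, rfl⟩ := ProjGenLinGroup.mk_surjective g
  rw [isUnip_mk] at hu
  set l : K := h.val.trace / 2 with hl
  set N : Matrix (Fin 2) (Fin 2) K := h.val - l • (1 : Matrix (Fin 2) (Fin 2) K) with hN
  have hdet : h.val.det = l ^ 2 := by rw [hl]; linear_combination (-1 / 4 : K) * hu
  have hl0 : l ≠ 0 := fun e => Matrix.GeneralLinearGroup.det_ne_zero h (by rw [hdet, e]; ring)
  have hN2 : N * N = 0 := by
    have h00 : N 0 0 + N 1 1 = 0 := by
      simp [hN, hl, Matrix.trace_fin_two]; ring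
    have hd : N 0 0 * N 1 1 - N 0 1 * N 1 0 = 0 := by
      simp [hN, hl, Matrix.trace_fin_two, Matrix.det_fin_two] at hdet ⊢
      linear_combination hdet
    ext i j
    fin_cases i <;> fin_cases j <;> simp [Matrix.mul_apply, Fin.sum_univ_two]
    · linear_combination N 0 0 * h00 - hd
    · linear_combination N 0 1 * h00
    · linear_combination N 1 0 * h00
    · linear_combination N 1 1 * h00 - hd
  have hNne : N ≠ 0 := fun e => hne (Quad.mk_eq_one_iff.mpr
    (Quad.isScal_iff.mpr ⟨l, sub_eq_zero.mp (hN ▸ e)⟩))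
  obtain ⟨i, hi⟩ : ∃ i, N i ≠ 0 := by
    by_contra hh
    push Not at hh
    exact hNne (funext hh)
  set η : Fin 2 → K := Pi.single i 1
  set ξ : Fin 2 → K := l⁻¹ • (η ᵥ* N) with hξ
  have hηN : η ᵥ* N = N i := Matrix.single_one_vecMul i N
  have hξN : ξ ᵥ* N = 0 := by
    rw [hξ, Matrix.smul_vecMul, Matrix.vecMul_vecMul, hN2, Matrix.vecMul_zero, smul_zero]
  set P : Matrix (Fin 2) (Fin 2) K := Matrix.of ![η, ξ]
  have hP : P.det ≠ 0 := by
    intro h0
    obtain ⟨v, hv, hv0⟩ := Matrix.exists_vecMul_eq_zero_iff.mpr h0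
    have hv' : v 0 • η + v 1 • ξ = 0 := by
      ext j
      have := congrFun hv0 j
      simpa [Matrix.vecMul, dotProduct, Fin.sum_univ_two, P] using this
    have h2 := congrArg (· ᵥ* N) hv'
    simp only [Matrix.add_vecMul, Matrix.smul_vecMul, hξN, smul_zero, add_zero, hηN,
      Matrix.zero_vecMul] at h2
    have hv00 : v 0 = 0 := (smul_eq_zero.mp h2).resolve_right hi
    rw [hv00, zero_smul, zero_add] at hv'
    have hξ0 : ξ ≠ 0 := by
      rw [hξ, hηN]
      exact smul_ne_zero (inv_ne_zero hl0) hi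
    have hv11 : v 1 = 0 := (smul_eq_zero.mp hv').resolve_right hξ0
    exact hv (funext fun i => by fin_cases i <;> assumption)
  set p := GeneralLinearGroup.mkOfDetNeZero P hP
  have hh : h.val = l • (1 : Matrix (Fin 2) (Fin 2) K) + N := by rw [hN]; abel
  have eη : η ᵥ* h.val = l • η + l • ξ := by
    rw [hh, Matrix.vecMul_add, Matrix.vecMul_smul, Matrix.vecMul_one, hξ, smul_smul,
      mul_inv_cancel₀ hl0, one_smul]
  have eξ : ξ ᵥ* h.val = l • ξ := by
    rw [hh, Matrix.vecMul_add, Matrix.vecMul_smul, Matrix.vecMul_one, hξN, add_zero]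
  have key : p * h = uB 1 * sc (Units.mk0 l hl0) * p := by
    apply Units.ext
    ext r j
    have h1 := congrFun eη j
    have h2 := congrFun eξ j
    fin_cases r <;>
      simp [p, P, GeneralLinearGroup.mkOfDetNeZero, Matrix.mul_apply, Fin.sum_univ_two,
        Matrix.vecMul, dotProduct] at h1 h2 ⊢
    · rw [h1]
    · rw [h2]
  refine ⟨(ProjGenLinGroup.mk p)⁻¹, ?_⟩
  rw [inv_inv, mul_assoc, inv_mul_eq_iff_eq_mul, ← map_mul ProjGenLinGroup.mk p h, key]
  simp only [map_mul, ProjGenLinGroup.mk_scalar, mul_one]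

/-- The translation classes below form one class. -/
lemma uniK_eq_cls (X : TwistCtx K L) : uniK K = X.σK.cls (nB (1 : K)) := by
  ext g
  constructor
  · rintro hg
    obtain ⟨a, rfl⟩ := exists_conj_nB hg
    exact ⟨a, rfl⟩
  · rintro ⟨a, rfl⟩
    show IsUnip (a * nB 1 * a⁻¹) ∧ a * nB 1 * a⁻¹ ≠ 1
    refine ⟨(isUnip_conj _ _).mpr (isUnip_nB 1), fun h => uB_one_ne_one (K := K) ?_⟩
    rwa [conj_eq_one_iff] at h

/-- The translation classes above form one class. -/
lemma uniL_eq_cls (X : TwistCtx K L) (ht : IsTwist K X.τ) :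
    X.parSet \ X.idSet = X.σ.cls (nB ((3 : L)⁻¹)) := by
  have hn := Uni.nrm_nB_third X
  have h1 : X.T.nrm (nB ((3 : L)⁻¹)) ≠ 1 := by
    rw [hn, ← map_one (incl (K := K) (L := L))]
    exact fun e => uB_one_ne_one (g2Map_injective (algebraMap K L) e)
  ext c
  constructor
  · rintro ⟨hpar, hid⟩
    obtain ⟨δ', hconj, -⟩ := X.exists_mem_cls_nrm ht c
    obtain ⟨g, hg⟩ := isConj_iff.mp hconj
    have hu : IsUnip δ' := (Hyp.isUnip_map_iff (L := L) δ').mp (by
      show IsUnip (incl (K := K) (L := L) δ')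
      rw [← hg, isUnip_conj]
      exact hpar)
    have hne : δ' ≠ 1 := fun e => hid (by
      show X.T.nrm c = 1
      rw [e, map_one, conj_eq_one_iff] at hg
      exact hg)
    obtain ⟨a, ha⟩ := exists_conj_nB (show δ' ∈ uniK K from ⟨hu, hne⟩)
    have hc : IsConj (tnrm X.τ (nB ((3 : L)⁻¹))) (tnrm X.τ c) := by
      show IsConj (X.T.nrm _) (X.T.nrm c)
      refine IsConj.trans ?_ hconj.symm
      rw [hn]
      exact isConj_iff.mpr ⟨incl a, by rw [← map_inv, ← map_mul, ← map_mul, ha]⟩
    exact ht.exists_tconj_iff.mpr hc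
  · rintro ⟨g, rfl⟩
    refine ⟨X.stable_parSet g _ ?_, fun h => ?_⟩
    · show IsUnip (X.T.nrm _)
      rw [hn]
      exact (Hyp.isUnip_map_iff (L := L) _).mpr (isUnip_nB 1)
    · have h' : X.T.nrm (X.σ.conj g (nB ((3 : L)⁻¹))) = 1 := h
      rw [nrm_conj, conj_eq_one_iff] at h'
      exact h1 h'

/-- A function whose integrals over long intervals stay bounded has no other limit than zero. -/
lemma eq_zero_of_integral_le {h : ℝ → ℂ} {c : ℂ} {s₀ M : ℝ}
    (hlim : Tendsto h atBot (𝓝 c))
    (hint : ∀ A B, A ≤ B → B ≤ s₀ →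
      IntervalIntegrable h volume A B ∧ ‖∫ s in A..B, h s‖ ≤ M) : c = 0 := by
  by_contra hc
  have hη : 0 < ‖c‖ / 2 := by positivity
  obtain ⟨B₀, hB₀⟩ := eventually_atBot.mp (Metric.tendsto_nhds.mp hlim _ hη)
  set B := min B₀ s₀
  set len := 2 * (|M| + 1) / ‖c‖
  have hlen : 0 < len := by positivity
  obtain ⟨hi, hM⟩ := hint (B - len) B (by linarith) (min_le_right _ _)
  have h1 : ‖∫ s in (B - len)..B, (h s - c)‖ ≤ ‖c‖ / 2 * |B - (B - len)| := by
    refine intervalIntegral.norm_integral_le_of_norm_le_const fun s hs => ?_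
    rw [Set.uIoc_of_le (by linarith)] at hs
    have := hB₀ s (hs.2.trans (min_le_left _ _))
    rw [dist_eq_norm] at this
    exact this.le
  rw [intervalIntegral.integral_sub hi intervalIntegrable_const, intervalIntegral.integral_const,
    sub_sub_cancel, abs_of_pos hlen] at h1
  have h2 : ‖len • c‖ ≤ |M| + ‖c‖ / 2 * len := by
    have := norm_sub_norm_le (len • c) (∫ s in (B - len)..B, h s)
    rw [norm_sub_rev] at this
    linarith [le_abs_self M]
  rw [norm_smul, Real.norm_eq_abs, abs_of_pos hlen] at h2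
  have h3 : len * ‖c‖ = 2 * (|M| + 1) := div_mul_cancel₀ _ (norm_ne_zero_iff.mpr hc)
  linarith [mul_comm len ‖c‖]

end FermatAgent.LT.Ctx
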